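/-
Programme FFJ (S19), chapter BRIDGE (helper96), file 3 (Mathlib only): linear disjointness in
coefficient form.

`R` a domain with fraction field `K₁`, `L/K₁` a field extension, `B` an `R`-module with an injective
`R`-linear "coefficient map" `c : B → (ι → K₁)` (in the application: the `q`-expansion coefficients).
Then every additive map `Φ : L ⊗[R] B → (ι → L)` with `Φ (l ⊗ b) n = l * c b n` is injective.
(`L ⊗_R B → L^ι` is injective: `K₁`-linearly independent elements of `L` stay independent over
`K₁^ι`.)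
-/
import Mathlib

set_option autoImplicit false

open TensorProduct

namespace Fermat.Agent.FFJ.Bridge.LinDisjoint96

section LD

variable {R K₁ L B ι : Type*} [CommRing R] [Field K₁] [Field L] [Algebra R K₁]
  [IsFractionRing R K₁] [Algebra K₁ L] [Algebra R L] [IsScalarTower R K₁ L]
  [AddCommGroup B] [Module R B]

/-- `f ↦ ∑ i, e i ⊗ f i` for a family `e` of elements of `L`. -/
noncomputable def psi {I : Type*} (e : I → L) : (I →₀ B) →ₗ[R] L ⊗[R] B :=
  Finsupp.lsum R fun i => (TensorProduct.mk R L B (e i))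

theorem psi_single {I : Type*} (e : I → L) (i : I) (b : B) :
    psi (R := R) e (Finsupp.single i b) = e i ⊗ₜ[R] b := by
  simp [psi]

theorem psi_apply {I : Type*} (e : I → L) (f : I →₀ B) :
    psi (R := R) e f = f.sum fun i b => e i ⊗ₜ[R] b := by
  simp only [psi, Finsupp.lsum_apply]
  rfl

/-- Every element of `L ⊗[R] B` becomes, after multiplication by a nonzero `d : R`, a combination
`∑ e i ⊗ b i` over a `K₁`-basis `e` of `L`. -/
theorem exists_smul_eq_psi {I : Type*} (e : Module.Basis I K₁ L) (x : L ⊗[R] B) :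
    ∃ d : R, d ≠ 0 ∧ ∃ f : I →₀ B, d • x = psi (R := R) e f := by
  have hdom : IsDomain R := (IsFractionRing.injective R K₁).isDomain (algebraMap R K₁)
  -- closure under addition
  have hadd : ∀ x y : L ⊗[R] B, (∃ d : R, d ≠ 0 ∧ ∃ f : I →₀ B, d • x = psi (R := R) e f) →
      (∃ d : R, d ≠ 0 ∧ ∃ f : I →₀ B, d • y = psi (R := R) e f) →
      ∃ d : R, d ≠ 0 ∧ ∃ f : I →₀ B, d • (x + y) = psi (R := R) e f := by
    rintro x y ⟨d, hd, f, hf⟩ ⟨d', hd', f', hf'⟩
    refine ⟨d * d', mul_ne_zero hd hd', d' • f + d • f', ?_⟩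
    rw [smul_add, map_add, map_smul, map_smul, ← hf, ← hf', smul_smul, smul_smul, mul_comm d' d]
  induction x using TensorProduct.induction_on with
  | zero => exact ⟨1, one_ne_zero, 0, by simp⟩
  | add x y hx hy => exact hadd x y hx hy
  | tmul l b =>
    -- induction on the coordinates of `l`
    have key : ∀ g : I →₀ K₁, ∃ d : R, d ≠ 0 ∧ ∃ f : I →₀ B,
        d • ((e.repr.symm g) ⊗ₜ[R] b) = psi (R := R) e f := by
      intro g
      induction g using Finsupp.induction_linear with
      | zero => exact ⟨1, one_ne_zero, 0, by simp⟩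
      | add g g' hg hg' =>
        rw [map_add, TensorProduct.add_tmul]
        exact hadd _ _ hg hg'
      | single i a =>
        obtain ⟨⟨r, d⟩, hrd⟩ := IsLocalization.surj (nonZeroDivisors R) a
        have hd0 : (d : R) ≠ 0 := nonZeroDivisors.ne_zero d.2
        refine ⟨d, hd0, Finsupp.single i (r • b), ?_⟩
        rw [psi_single, Module.Basis.repr_symm_single, TensorProduct.smul_tmul', ← smul_assoc]
        have h1 : ((d : R) • a : K₁) = algebraMap R K₁ r := by
          rw [Algebra.smul_def, mul_comm]; exact hrd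
        rw [h1, algebraMap_smul, TensorProduct.smul_tmul]
    obtain ⟨d, hd, f, hf⟩ := key (e.repr l)
    exact ⟨d, hd, f, by rwa [LinearEquiv.symm_apply_apply] at hf⟩

/-- **Linear disjointness, coefficient form.** -/
theorem injective_of_coeff (c : B →ₗ[R] (ι → K₁)) (hc : Function.Injective c)
    (Φ : L ⊗[R] B →+ (ι → L))
    (hΦ : ∀ (l : L) (b : B) (n : ι), Φ (l ⊗ₜ[R] b) n = l * algebraMap K₁ L (c b n)) :
    Function.Injective Φ := by
  rw [injective_iff_map_eq_zero]
  intro x hx
  have hinjRK : Function.Injective (algebraMap R K₁) := IsFractionRing.injective R K₁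
  have hinjRL : Function.Injective (algebraMap R L) := by
    rw [IsScalarTower.algebraMap_eq R K₁ L]
    exact (algebraMap K₁ L).injective.comp hinjRK
  -- `Φ` is compatible with the action of `R`
  have hsmul : ∀ (d : R) (y : L ⊗[R] B) (n : ι), Φ (d • y) n = algebraMap R L d * Φ y n := by
    intro d y n
    induction y using TensorProduct.induction_on with
    | zero => simp
    | add y z hy hz => rw [smul_add, map_add, Pi.add_apply, hy, hz, map_add, Pi.add_apply, mul_add]
    | tmul l b => rw [TensorProduct.smul_tmul', hΦ, hΦ, Algebra.smul_def, mul_assoc]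
  let e := Module.Basis.ofVectorSpace K₁ L
  obtain ⟨d, hd, f, hf⟩ := exists_smul_eq_psi (R := R) (B := B) e x
  -- the coefficients of `psi e f`
  have hpsi : ∀ n : ι, Φ (psi (R := R) e f) n = ∑ i ∈ f.support, (c (f i) n) • e i := by
    intro n
    rw [psi_apply, Finsupp.sum, map_sum, Finset.sum_apply]
    refine Finset.sum_congr rfl fun i _ => ?_
    rw [hΦ, Algebra.smul_def, mul_comm]
  have hzero : ∀ n : ι, ∑ i ∈ f.support, (c (f i) n) • e i = 0 := by
    intro n
    rw [← hpsi, ← hf, hsmul, hx]
    simp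
  have hf0 : f = 0 := by
    ext i
    by_cases hi : i ∈ f.support
    · apply hc
      rw [Finsupp.coe_zero, Pi.zero_apply, map_zero]
      funext n
      exact linearIndependent_iff'.mp e.linearIndependent f.support (fun i => c (f i) n)
        (hzero n) i hi
    · simpa using hi
  rw [hf0, map_zero] at hf
  have hdL : algebraMap R L d ≠ 0 := fun h => hd (hinjRL (by rw [h, map_zero]))
  have h1 : (algebraMap R L d) • x = 0 := by rw [algebraMap_smul]; exact hf
  calc x = (algebraMap R L d)⁻¹ • ((algebraMap R L d) • x) := by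
        rw [smul_smul, inv_mul_cancel₀ hdL, one_smul]
    _ = 0 := by rw [h1, smul_zero]

end LD

section Fractions

variable {R : Type*} [CommRing R] {E : Type*} [Field E] (Λ : R →+* E)

/-- The elements of a field `E` which are fractions of elements of the image of `Λ : R → E` form a
subfield: closure form. -/
theorem exists_fraction_of_mem_closure (S : Set E)
    (hS : ∀ z ∈ S, ∃ x y : R, Λ y ≠ 0 ∧ z * Λ y = Λ x) :
    ∀ z ∈ Subfield.closure S, ∃ x y : R, Λ y ≠ 0 ∧ z * Λ y = Λ x := by
  intro z hz
  induction hz using Subfield.closure_induction with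
  | mem z hz => exact hS z hz
  | one => exact ⟨1, 1, by simp, by simp⟩
  | add z w _ _ hz hw =>
    obtain ⟨a, b, hb, hab⟩ := hz
    obtain ⟨c, d, hd, hcd⟩ := hw
    refine ⟨a * d + c * b, b * d, by rw [map_mul]; exact mul_ne_zero hb hd, ?_⟩
    rw [map_add, map_mul, map_mul, map_mul, ← hab, ← hcd]
    ring
  | neg z _ hz =>
    obtain ⟨a, b, hb, hab⟩ := hz
    exact ⟨-a, b, hb, by rw [map_neg, ← hab]; ring⟩
  | inv z _ hz =>
    obtain ⟨a, b, hb, hab⟩ := hz
    by_cases hz0 : z = 0
    · exact ⟨0, 1, by simp, by simp [hz0]⟩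
    · have ha : Λ a ≠ 0 := by rw [← hab]; exact mul_ne_zero hz0 hb
      refine ⟨b, a, ha, ?_⟩
      rw [← hab, ← mul_assoc, inv_mul_cancel₀ hz0, one_mul]
  | mul z w _ _ hz hw =>
    obtain ⟨a, b, hb, hab⟩ := hz
    obtain ⟨c, d, hd, hcd⟩ := hw
    refine ⟨a * c, b * d, by rw [map_mul]; exact mul_ne_zero hb hd, ?_⟩
    rw [map_mul, map_mul, ← hab, ← hcd]
    ring

end Fractions

end Fermat.Agent.FFJ.Bridge.LinDisjoint96
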