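/-
Programme FFJ (S19), chapter BRIDGE, concrete part (helper96), file 1: the abstract field model.

Setting: CURVE data `(A0 → A01 ← A1; t, s)` over a base ring `k`, a field `K` over `k` and a field `F`
over `K` which is the fraction field of `K ⊗[k] A01` (NOT necessarily `FractionRing`: in the
application `F` is the Prelude's `modularFunctionFieldBar M ⊂ ℚ̄((q))`).

* Section `Inst`: with the algebra structures `K ⊗[k] A_i → F` given as instances (the shape of
  `Bridge/Equivariant85`), the two-chart setting `IsSetting`/`TwoChart` of the fibre theory holds, and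
  `iota S T : Multiplicative (Pic0 K F) →* ClR k A0 A1 A01 t s K` is an injective homomorphism onto
  the rigid classes of degree zero `PicZeroR e K`, equivariant for every semilinear automorphism of
  `F/K` which fixes the images of `A0, A1, A01`.
* Section `FromMap`: the same, instance free, from a single ring homomorphism `j : A01 → F`
  compatible with the constants, such that the induced map `K ⊗[k] A01 → F` is injective with
  fraction field `F`.
-/
import Mathlib
import Fermat.Agent.FFJ.Bridge.Equivariant85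
import Fermat.Agent.FFJ.Core.DegFamilyR65
import Fermat.Agent.JAC.Fibre.ConstExt37
import Fermat.Agent.JAC.Fibre.SettingFrame38
import Fermat.Agent.JAC.Frame.BaseChange65

set_option autoImplicit false
set_option linter.unusedSectionVars false
set_option linter.style.haveILetI false

open AlgebraicCurve IsDedekindDomain TensorProduct Polynomial

namespace Fermat.Agent.FFJ.Bridge.FieldModel96

open Fermat.Agent.JAC.Fibre.Lat38 Fermat.Agent.JAC.Fibre.Core38 Fermat.Agent.JAC.Fibre.Chart38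
  Fermat.Agent.JAC.Fibre.DiagOfDiv38 Fermat.Agent.JAC.Fibre.DegAdd38
  Fermat.Agent.JAC.Fibre.PicZero38 Fermat.Agent.JAC.Fibre.SettingFrame38
  Fermat.Agent.JAC.Core.Defs36 Fermat.Agent.JAC.Grp.Diag33
  Fermat.Agent.FFJ.Core.ClR35 Fermat.Agent.FFJ.Core.ClRBc35 Fermat.Agent.FFJ.Core.DegFamilyR65
  Fermat.Agent.FFJ.Bridge.Equivariant85 Fermat.Agent.JAC.Core.ConstFamily36
  Fermat.Agent.JAC.Core.Degree36
open scoped Fermat.Agent.JAC.Core.ConstFamily36

universe u

section Inst

variable {k : Type u} [CommRing k] {A0 A1 A01 : Type u} [CommRing A0] [CommRing A1] [CommRing A01]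
  [Algebra k A0] [Algebra k A1] [Algebra k A01] [Algebra A0 A01] [Algebra A1 A01]
  [IsScalarTower k A0 A01] [IsScalarTower k A1 A01] {t : A0} {s : A1}
  [IsLocalization.Away t A01] [IsLocalization.Away s A01]
  {K : Type u} [Field K] [Algebra k K] {F : Type u} [Field F] [Algebra K F]
  [IsDedekindDomain (K ⊗[k] A0)] [IsDedekindDomain (K ⊗[k] A1)] [IsDedekindDomain (K ⊗[k] A01)]
  [Algebra (K ⊗[k] A0) F] [Algebra (K ⊗[k] A1) F] [Algebra (K ⊗[k] A01) F]
  [IsFractionRing (K ⊗[k] A0) F] [IsFractionRing (K ⊗[k] A1) F] [IsFractionRing (K ⊗[k] A01) F]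
  [IsScalarTower K (K ⊗[k] A0) F] [IsScalarTower K (K ⊗[k] A1) F] [IsScalarTower K (K ⊗[k] A01) F]
  [IsScalarTower (K ⊗[k] A0) (K ⊗[k] A01) F] [IsScalarTower (K ⊗[k] A1) (K ⊗[k] A01) F]
  (hts : algebraMap A0 A01 t * algebraMap A1 A01 s = 1)
  {n0 n1 : ℕ} (a0 : Fin n0 → A0)
  (ha0 : Function.Bijective (fun p : Fin n0 → k[X] => ∑ j, aeval t (p j) * a0 j))
  (a1 : Fin n1 → A1)
  (ha1 : Function.Bijective (fun p : Fin n1 → k[X] => ∑ j, aeval s (p j) * a1 j))

include hts in
theorem hts_tensor :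
    algebraMap (K ⊗[k] A0) (K ⊗[k] A01) ((1 : K) ⊗ₜ[k] t) *
      algebraMap (K ⊗[k] A1) (K ⊗[k] A01) ((1 : K) ⊗ₜ[k] s) = 1 := by
  rw [Fermat.Agent.JAC.Core.ConstFamily36.algebraMap_tensor_tmul,
    Fermat.Agent.JAC.Core.ConstFamily36.algebraMap_tensor_tmul,
    Algebra.TensorProduct.tmul_mul_tmul, one_mul, hts]
  rfl

include hts ha0 ha1 in
/-- The two-chart setting of the fibre theory, inside an arbitrary model `F` of the function field. -/
theorem isSetting :
    IsSetting K F ((1 : K) ⊗ₜ[k] t) ((1 : K) ⊗ₜ[k] s) (K ⊗[k] A01) where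
  away₀ := inferInstance
  away₁ := inferInstance
  hts := hts_field (F := F) (B₀₁ := K ⊗[k] A01) _ _ (hts_tensor (K := K) hts)
  hint₀ := isIntegral_of_spanning (K := K) _ _
    (Fermat.Agent.JAC.Frame.BaseChange65.bijective_baseChange K ha0).2
  hint₁ := isIntegral_of_spanning (K := K) _ _
    (Fermat.Agent.JAC.Frame.BaseChange65.bijective_baseChange K ha1).2

include hts ha0 ha1 in
/-- The two-chart interface of the place-language fibre theory. -/
theorem exists_twoChart :
    Nonempty (PLift (TwoChart (chartSet (K := K) (F := F) (K ⊗[k] A0))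
      (chartSet (K := K) (F := F) (K ⊗[k] A1)))) := by
  obtain ⟨T, -⟩ := twoChart_of_bases (K := K) (F := F) (B₀₁ := K ⊗[k] A01) ((1 : K) ⊗ₜ[k] t)
    ((1 : K) ⊗ₜ[k] s) (hts_tensor (K := K) hts) _
    (Fermat.Agent.JAC.Frame.BaseChange65.bijective_baseChange K ha0) _
    (Fermat.Agent.JAC.Frame.BaseChange65.bijective_baseChange K ha1)
  exact ⟨⟨T⟩⟩

section Iota

variable (S : IsSetting K F ((1 : K) ⊗ₜ[k] t) ((1 : K) ⊗ₜ[k] s) (K ⊗[k] A01))
  (T : TwoChart (chartSet (K := K) (F := F) (K ⊗[k] A0)) (chartSet (K := K) (F := F) (K ⊗[k] A1)))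

/-- **The bridge map**: a point of `Pic0 K F` as a class of line diagrams over `K`. -/
noncomputable def iota : Multiplicative (Pic0 K F) →* ClR k A0 A1 A01 t s K where
  toFun m := ((Additive.toMul (pic0Equiv S T (Multiplicative.toAdd m)) : ↥(degHom S T).ker) :
    ClR k A0 A1 A01 t s K)
  map_one' := by
    show ((Additive.toMul (pic0Equiv S T 0) : ↥(degHom S T).ker) : ClR k A0 A1 A01 t s K) = 1
    rw [map_zero]; rfl
  map_mul' a b := by
    show ((Additive.toMul (pic0Equiv S T (Multiplicative.toAdd a + Multiplicative.toAdd b)) :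
      ↥(degHom S T).ker) : ClR k A0 A1 A01 t s K) = _
    rw [map_add]; rfl

theorem iota_apply (m : Multiplicative (Pic0 K F)) :
    iota S T m = ((Additive.toMul (pic0Equiv S T (Multiplicative.toAdd m)) : ↥(degHom S T).ker) :
      ClR k A0 A1 A01 t s K) := rfl

theorem iota_injective : Function.Injective (iota S T) := by
  intro a b hab
  have h1 : (Additive.toMul (pic0Equiv S T (Multiplicative.toAdd a)) : ↥(degHom S T).ker) =
      Additive.toMul (pic0Equiv S T (Multiplicative.toAdd b)) := Subtype.ext hab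
  have h2 := (pic0Equiv S T).injective (Additive.toMul.injective h1)
  exact Multiplicative.toAdd.injective h2

theorem degClass_iota (m : Multiplicative (Pic0 K F)) : degClass K (iota S T m) = 0 :=
  (mem_ker_degHom S T _).1 (Additive.toMul (pic0Equiv S T (Multiplicative.toAdd m))).2

theorem exists_iota_eq {ξ : ClR k A0 A1 A01 t s K} (hξ : degClass K ξ = 0) :
    ∃ m, iota S T m = ξ := by
  refine ⟨Multiplicative.ofAdd ((pic0Equiv S T).symm
    (Additive.ofMul ⟨ξ, (mem_ker_degHom S T ξ).2 hξ⟩)), ?_⟩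
  rw [iota_apply, toAdd_ofAdd, AddEquiv.apply_symm_apply]
  rfl

/-- Over a field every class is rigid. -/
theorem isRigidClR_field (e : A01 →ₐ[k] k) (ξ : ClR k A0 A1 A01 t s K) : IsRigidClR e K ξ := by
  letI := rigAlgebra K e
  show ξ ∈ rigidSubgroup (t := (1 : K) ⊗ₜ[k] t) (s := (1 : K) ⊗ₜ[k] s) K
  rw [rigidSubgroup, MonoidHom.mem_ker]
  exact Subsingleton.elim _ _

include hts ha0 ha1 in
/-- Over a field, the rigid classes of degree zero are the classes of degree zero. -/
theorem mem_picZeroR_iff (e : A01 →ₐ[k] k) (ξ : ClR k A0 A1 A01 t s K) :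
    ξ ∈ PicZeroR e K ↔ degClass K ξ = 0 := by
  constructor
  · intro h
    exact (isDegZeroR_field_iff hts a0 ha0 a1 ha1 ξ).1 h.2
  · intro h
    exact ⟨isRigidClR_field e ξ, (isDegZeroR_field_iff hts a0 ha0 a1 ha1 ξ).2 h⟩

include hts ha0 ha1 in
theorem iota_mem_picZeroR (e : A01 →ₐ[k] k) (m : Multiplicative (Pic0 K F)) :
    iota S T m ∈ PicZeroR e K :=
  (mem_picZeroR_iff hts a0 ha0 a1 ha1 e _).2 (degClass_iota S T m)

include hts ha0 ha1 in
theorem exists_iota_eq_of_mem (e : A01 →ₐ[k] k) {ξ : ClR k A0 A1 A01 t s K}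
    (hξ : ξ ∈ PicZeroR e K) : ∃ m, iota S T m = ξ :=
  exists_iota_eq S T ((mem_picZeroR_iff hts a0 ha0 a1 ha1 e ξ).1 hξ)

/-- **Equivariance of the bridge map**: a semilinear automorphism of `F/K` inducing `σ` on the
constants and fixing the images of `A0`, `A1`, `A01` acts on `Pic0 K F` as `bcR σ` acts on classes. -/
theorem iota_smul (g : SemilinearAut K F) (σ : K →ₐ[k] K)
    (hσ : ∀ b, SemilinearAut.baseAut g b = σ b)
    (h0 : ∀ a : A0, g • algebraMap (K ⊗[k] A0) F ((1 : K) ⊗ₜ[k] a) =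
      algebraMap (K ⊗[k] A0) F ((1 : K) ⊗ₜ[k] a))
    (h1 : ∀ a : A1, g • algebraMap (K ⊗[k] A1) F ((1 : K) ⊗ₜ[k] a) =
      algebraMap (K ⊗[k] A1) F ((1 : K) ⊗ₜ[k] a))
    (h01 : ∀ a : A01, g • algebraMap (K ⊗[k] A01) F ((1 : K) ⊗ₜ[k] a) =
      algebraMap (K ⊗[k] A01) F ((1 : K) ⊗ₜ[k] a))
    (m : Pic0 K F) :
    iota S T (Multiplicative.ofAdd (g • m)) = bcR σ (iota S T (Multiplicative.ofAdd m)) :=
  pic0Equiv_smul_bcR g σ hσ h0 h1 h01 S T m

end Iota

end Inst

section FromMap

variable {k : Type u} [CommRing k] {A0 A1 A01 : Type u} [CommRing A0] [CommRing A1] [CommRing A01]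
  [Algebra k A0] [Algebra k A1] [Algebra k A01] [Algebra A0 A01] [Algebra A1 A01]
  [IsScalarTower k A0 A01] [IsScalarTower k A1 A01] {t : A0} {s : A1}
  [IsLocalization.Away t A01] [IsLocalization.Away s A01]
  {K : Type u} [Field K] [Algebra k K] {F : Type u} [Field F] [Algebra K F]

/-- The `K`-algebra map `K ⊗[k] A → F`, `c ⊗ a ↦ c • j a`, induced by a ring map `j : A → F` which is
compatible with the constants. -/
noncomputable def liftK (A : Type u) [CommRing A] [Algebra k A] (j : A →+* F)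
    (hj : ∀ c : k, j (algebraMap k A c) = algebraMap K F (algebraMap k K c)) :
    K ⊗[k] A →ₐ[K] F :=
  letI : Algebra k F := ((algebraMap K F).comp (algebraMap k K)).toAlgebra
  haveI : IsScalarTower k K F := IsScalarTower.of_algebraMap_eq fun _ => rfl
  Algebra.TensorProduct.lift (Algebra.ofId K F) ({ j with commutes' := hj } : A →ₐ[k] F)
    (fun _ _ => Commute.all _ _)

theorem liftK_tmul (A : Type u) [CommRing A] [Algebra k A] (j : A →+* F)
    (hj : ∀ c : k, j (algebraMap k A c) = algebraMap K F (algebraMap k K c)) (c : K) (a : A) :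
    liftK A j hj (c ⊗ₜ[k] a) = algebraMap K F c * j a := by
  letI : Algebra k F := ((algebraMap K F).comp (algebraMap k K)).toAlgebra
  haveI : IsScalarTower k K F := IsScalarTower.of_algebraMap_eq fun _ => rfl
  unfold liftK
  rw [Algebra.TensorProduct.lift_tmul]
  rfl

theorem liftK_one_tmul (A : Type u) [CommRing A] [Algebra k A] (j : A →+* F)
    (hj : ∀ c : k, j (algebraMap k A c) = algebraMap K F (algebraMap k K c)) (a : A) :
    liftK A j hj ((1 : K) ⊗ₜ[k] a) = j a := by
  rw [liftK_tmul, map_one, one_mul]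

variable [IsDedekindDomain (K ⊗[k] A0)] [IsDedekindDomain (K ⊗[k] A1)]
  [IsDedekindDomain (K ⊗[k] A01)]

/-- **The abstract bridge** (instance free).  Let `j : A01 → F` be a ring map, compatible with the
constants, such that `K ⊗[k] A01 → F` is injective and `F` is the fraction field of its image.  Then
there is an injective homomorphism `ι` from `Pic0 K F` onto the rigid degree-zero classes over `K`,
and every semilinear automorphism `g` of `F/K` which fixes `j(A01)` pointwise and induces `σ` on `K`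
satisfies `ι (g • m) = bcR σ (ι m)`. -/
theorem exists_iota_of_map
    (hts : algebraMap A0 A01 t * algebraMap A1 A01 s = 1)
    {n0 n1 : ℕ} (a0 : Fin n0 → A0)
    (ha0 : Function.Bijective (fun p : Fin n0 → k[X] => ∑ j, aeval t (p j) * a0 j))
    (a1 : Fin n1 → A1)
    (ha1 : Function.Bijective (fun p : Fin n1 → k[X] => ∑ j, aeval s (p j) * a1 j))
    (e : A01 →ₐ[k] k) (j : A01 →+* F)
    (hj : ∀ c : k, j (algebraMap k A01 c) = algebraMap K F (algebraMap k K c))
    (hinj : Function.Injective (liftK A01 j hj))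
    (hfrac : ∀ f : F, ∃ x y : K ⊗[k] A01, liftK A01 j hj y ≠ 0 ∧
      f * liftK A01 j hj y = liftK A01 j hj x) :
    ∃ ι : Multiplicative (Pic0 K F) →* ClR k A0 A1 A01 t s K,
      Function.Injective ι ∧ (∀ m, ι m ∈ PicZeroR e K) ∧
      (∀ ξ ∈ PicZeroR e K, ∃ m, ι m = ξ) ∧
      ∀ (g : SemilinearAut K F) (σ : K →ₐ[k] K), (∀ b, SemilinearAut.baseAut g b = σ b) →
        (∀ a : A01, g • j a = j a) → ∀ m : Pic0 K F,
        ι (Multiplicative.ofAdd (g • m)) = bcR σ (ι (Multiplicative.ofAdd m)) := by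
  letI alg01 : Algebra (K ⊗[k] A01) F := (liftK A01 j hj).toRingHom.toAlgebra
  letI alg0 : Algebra (K ⊗[k] A0) F :=
    ((liftK A01 j hj).toRingHom.comp (algebraMap (K ⊗[k] A0) (K ⊗[k] A01))).toAlgebra
  letI alg1 : Algebra (K ⊗[k] A1) F :=
    ((liftK A01 j hj).toRingHom.comp (algebraMap (K ⊗[k] A1) (K ⊗[k] A01))).toAlgebra
  have halg01 : ∀ x : K ⊗[k] A01, algebraMap (K ⊗[k] A01) F x = liftK A01 j hj x := fun _ => rfl
  have halg0 : ∀ x : K ⊗[k] A0, algebraMap (K ⊗[k] A0) F x =
      liftK A01 j hj (algebraMap (K ⊗[k] A0) (K ⊗[k] A01) x) := fun _ => rfl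
  have halg1 : ∀ x : K ⊗[k] A1, algebraMap (K ⊗[k] A1) F x =
      liftK A01 j hj (algebraMap (K ⊗[k] A1) (K ⊗[k] A01) x) := fun _ => rfl
  haveI : IsScalarTower (K ⊗[k] A0) (K ⊗[k] A01) F := IsScalarTower.of_algebraMap_eq fun _ => rfl
  haveI : IsScalarTower (K ⊗[k] A1) (K ⊗[k] A01) F := IsScalarTower.of_algebraMap_eq fun _ => rfl
  haveI : IsScalarTower K (K ⊗[k] A01) F := IsScalarTower.of_algebraMap_eq fun c => by
    rw [halg01, AlgHom.commutes]
  haveI : IsScalarTower K (K ⊗[k] A0) F := IsScalarTower.of_algebraMap_eq fun c => by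
    rw [halg0, ← IsScalarTower.algebraMap_apply K (K ⊗[k] A0) (K ⊗[k] A01), AlgHom.commutes]
  haveI : IsScalarTower K (K ⊗[k] A1) F := IsScalarTower.of_algebraMap_eq fun c => by
    rw [halg1, ← IsScalarTower.algebraMap_apply K (K ⊗[k] A1) (K ⊗[k] A01), AlgHom.commutes]
  haveI : FaithfulSMul (K ⊗[k] A01) F := (faithfulSMul_iff_algebraMap_injective _ _).mpr hinj
  haveI frac01 : IsFractionRing (K ⊗[k] A01) F := IsFractionRing.of_field (K ⊗[k] A01) F fun f => by
    obtain ⟨x, y, hy, hxy⟩ := hfrac f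
    refine ⟨x, y, ?_⟩
    rw [halg01, halg01, eq_div_iff hy]
    exact hxy
  haveI frac0 : IsFractionRing (K ⊗[k] A0) F :=
    Fermat.Agent.JAC.Fibre.ConstExt37.isFractionRing_of_away (S := K ⊗[k] A01) ((1 : K) ⊗ₜ[k] t)
  haveI frac1 : IsFractionRing (K ⊗[k] A1) F :=
    Fermat.Agent.JAC.Fibre.ConstExt37.isFractionRing_of_away (S := K ⊗[k] A01) ((1 : K) ⊗ₜ[k] s)
  have S : IsSetting K F ((1 : K) ⊗ₜ[k] t) ((1 : K) ⊗ₜ[k] s) (K ⊗[k] A01) :=
    isSetting hts a0 ha0 a1 ha1
  obtain ⟨⟨T⟩⟩ := exists_twoChart (K := K) (F := F) hts a0 ha0 a1 ha1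
  refine ⟨iota S T, iota_injective S T, iota_mem_picZeroR hts a0 ha0 a1 ha1 S T e,
    fun ξ hξ => exists_iota_eq_of_mem hts a0 ha0 a1 ha1 S T e hξ, ?_⟩
  intro g σ hσ hg m
  refine iota_smul S T g σ hσ ?_ ?_ ?_ m
  · intro a
    rw [halg0, Fermat.Agent.JAC.Core.ConstFamily36.algebraMap_tensor_tmul, liftK_one_tmul]
    exact hg _
  · intro a
    rw [halg1, Fermat.Agent.JAC.Core.ConstFamily36.algebraMap_tensor_tmul, liftK_one_tmul]
    exact hg _
  · intro a
    rw [halg01, liftK_one_tmul]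
    exact hg _

end FromMap

end Fermat.Agent.FFJ.Bridge.FieldModel96
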