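/-
Programme FFJ (S19), chapter BRIDGE, concrete part (helper96), file 2: the bridge for `J₀(M)`.

`K ⊂ ℚ̄` an intermediate field, `O` a ring with `O → K → ℚ̄` (in the application `O = A ∩ K`), curve data
`(A0 → A01 ← A1; t, s; e)` over `O` satisfying `Spec35.CurveHypR`, and a ring map
`j : A01 → modularFunctionFieldBar M ⊂ ℚ̄((q))` compatible with the constants such that

* `ℚ̄ ⊗[O] A01 → modularFunctionFieldBar M` is injective (`hinj`),
* `modularFunctionFieldBar M` is the fraction field of its image (`hfrac`),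
* the `q`-expansions `j a` have their coefficients in `K` (`hK`).

Then there is an injective homomorphism `ι` from `JZero M = Pic0 ℚ̄ (modularFunctionFieldBar M)` onto
`PicZeroR e ℚ̄`, equivariant for `Gal(ℚ̄/K)`: the Prelude action (through `arithmeticGalois`) on the left,
`Spec35.galActR` on the right.  `exists_bridge_torsion` is the restriction to `J₀(M)[n]`, literally in the
shape of the hypotheses of `Spec35.OrderStatement`.
-/
import Mathlib
import Fermat.Prelude.Def_ModularCurve_ArithmeticGalois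
import Fermat.Agent.FFJ.Bridge.FieldModel96
import Fermat.Agent.FFJ.Spec.Spec35

set_option autoImplicit false
set_option linter.unusedSectionVars false
set_option linter.style.haveILetI false

open AlgebraicCurve ModularCurve TensorProduct

namespace Fermat.Agent.FFJ.Bridge.ModularBridge96

open Fermat.Agent.FFJ.Core.ClR35 Fermat.Agent.FFJ.Core.ClRBc35 Fermat.Agent.FFJ.Spec.Spec35
  Fermat.Agent.FFJ.Bridge.FieldModel96

/-- `ℚ̄`. -/
abbrev Qbar : Type := AlgebraicClosure ℚ

/-- `Gal(ℚ̄/ℚ)`. -/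
abbrev GQ : Type := Qbar ≃ₐ[ℚ] Qbar

section Coeff

variable (K : IntermediateField ℚ Qbar)

/-- A Laurent series over `ℚ̄` with coefficients in `K` is fixed by the coefficientwise action of
`Gal(ℚ̄/K)`. -/
theorem coeffMap_eq_self (σ : Qbar ≃ₐ[K] Qbar) (x : LaurentSeries Qbar)
    (hx : ∀ n : ℤ, x.coeff n ∈ K) :
    coeffMap ((σ.restrictScalars ℚ : GQ) : Qbar →+* Qbar) x = x := by
  ext n
  rw [coeffMap_coeff]
  exact σ.commutes ⟨x.coeff n, hx n⟩

/-- The arithmetic Galois action of `Gal(ℚ̄/K)` fixes the functions with `q`-expansion coefficients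
in `K`. -/
theorem arithmeticGalois_smul_eq_self (M : ℕ) (σ : Qbar ≃ₐ[K] Qbar)
    (x : modularFunctionFieldBar M) (hx : ∀ n : ℤ, (x : LaurentSeries Qbar).coeff n ∈ K) :
    arithmeticGalois (modularFunctionFieldFull M) (σ.restrictScalars ℚ : GQ) • x = x := by
  apply Subtype.ext
  rw [coe_arithmeticGalois_smul]
  exact coeffMap_eq_self K σ _ hx

end Coeff

section Bridge

variable (M : ℕ) (K : IntermediateField ℚ Qbar)
  (O : Type) [CommRing O] [Algebra O K] [Algebra O Qbar] [IsScalarTower O K Qbar]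
  {A0 A1 A01 : Type} [CommRing A0] [CommRing A1] [CommRing A01]
  [Algebra O A0] [Algebra O A1] [Algebra O A01] [Algebra A0 A01] [Algebra A1 A01]
  [IsScalarTower O A0 A01] [IsScalarTower O A1 A01] {t : A0} {s : A1}
  [IsLocalization.Away t A01] [IsLocalization.Away s A01]

/-- **BRIDGE, main theorem.** -/
theorem exists_bridge (H : CurveHypR O A0 A1 A01 t s) (e : A01 →ₐ[O] O)
    (j : A01 →+* modularFunctionFieldBar M)
    (hj : ∀ c : O, j (algebraMap O A01 c) =
      algebraMap Qbar (modularFunctionFieldBar M) (algebraMap O Qbar c))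
    (hinj : Function.Injective (liftK (K := Qbar) A01 j hj))
    (hfrac : ∀ f : modularFunctionFieldBar M, ∃ x y : Qbar ⊗[O] A01,
      liftK (K := Qbar) A01 j hj y ≠ 0 ∧
        f * liftK (K := Qbar) A01 j hj y = liftK (K := Qbar) A01 j hj x)
    (hK : ∀ (a : A01) (n : ℤ), ((j a : modularFunctionFieldBar M) : LaurentSeries Qbar).coeff n ∈ K) :
    ∃ ι : Multiplicative (JZero M) →* ClR O A0 A1 A01 t s Qbar,
      Function.Injective ι ∧ (∀ m, ι m ∈ PicZeroR e Qbar) ∧
      (∀ ξ ∈ PicZeroR e Qbar, ∃ m, ι m = ξ) ∧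
      ∀ (σ : Qbar ≃ₐ[K] Qbar) (m : JZero M),
        ι (Multiplicative.ofAdd ((σ.restrictScalars ℚ : GQ) • m)) =
          galActR O K σ (ι (Multiplicative.ofAdd m)) := by
  obtain ⟨n0, a0, ha0⟩ := H.free0
  obtain ⟨n1, a1, ha1⟩ := H.free1
  haveI := H.dedekind0 Qbar
  haveI := H.dedekind1 Qbar
  haveI := H.dedekind01 Qbar
  obtain ⟨ι, hι1, hι2, hι3, hι4⟩ := exists_iota_of_map (K := Qbar)
    (F := modularFunctionFieldBar M) H.ts a0 ha0 a1 ha1 e j hj hinj hfrac
  refine ⟨ι, hι1, hι2, hι3, fun σ m => ?_⟩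
  exact hι4 (arithmeticGalois (modularFunctionFieldFull M) (σ.restrictScalars ℚ : GQ))
    (galHom O K σ) (fun _ => rfl)
    (fun a => arithmeticGalois_smul_eq_self K M σ (j a) (hK a)) m

/-- **BRIDGE, form for a finite Galois module**: literally the hypotheses on `(M, ι)` of
`Spec35.OrderStatement`, for any abelian group `T` with an injective homomorphism `f` to `J₀(M)` and an
action of `Gal(ℚ̄/K)` for which `f` is equivariant (Prelude action on `J₀(M)`). -/
theorem exists_bridge_of_hom (H : CurveHypR O A0 A1 A01 t s) (e : A01 →ₐ[O] O)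
    (j : A01 →+* modularFunctionFieldBar M)
    (hj : ∀ c : O, j (algebraMap O A01 c) =
      algebraMap Qbar (modularFunctionFieldBar M) (algebraMap O Qbar c))
    (hinj : Function.Injective (liftK (K := Qbar) A01 j hj))
    (hfrac : ∀ f : modularFunctionFieldBar M, ∃ x y : Qbar ⊗[O] A01,
      liftK (K := Qbar) A01 j hj y ≠ 0 ∧
        f * liftK (K := Qbar) A01 j hj y = liftK (K := Qbar) A01 j hj x)
    (hK : ∀ (a : A01) (n : ℤ), ((j a : modularFunctionFieldBar M) : LaurentSeries Qbar).coeff n ∈ K)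
    {T : Type} [AddCommGroup T] [MulAction (Qbar ≃ₐ[K] Qbar) T] (f : T →+ JZero M)
    (hf : Function.Injective f)
    (hact : ∀ (σ : Qbar ≃ₐ[K] Qbar) (m : T), f (σ • m) = (σ.restrictScalars ℚ : GQ) • f m) :
    ∃ ι : Multiplicative T →* ClR O A0 A1 A01 t s Qbar,
      Function.Injective ι ∧ (∀ m, ι m ∈ PicZeroR e Qbar) ∧
      ∀ (σ : Qbar ≃ₐ[K] Qbar) (m : T),
        ι (Multiplicative.ofAdd (σ • m)) = galActR O K σ (ι (Multiplicative.ofAdd m)) := by
  obtain ⟨ι, hι1, hι2, -, hι4⟩ := exists_bridge M K O H e j hj hinj hfrac hK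
  refine ⟨ι.comp (AddMonoidHom.toMultiplicative f), ?_, fun m => hι2 _, ?_⟩
  · intro a b hab
    have h1 : Multiplicative.ofAdd (f (Multiplicative.toAdd a)) =
        Multiplicative.ofAdd (f (Multiplicative.toAdd b)) := hι1 hab
    exact Multiplicative.toAdd.injective (hf (Multiplicative.ofAdd.injective h1))
  · intro σ m
    show ι (Multiplicative.ofAdd (f (σ • m))) = _
    rw [hact, hι4]
    rfl

/-- **BRIDGE, torsion form**: `T = J₀(M)[n]` with any action of `Gal(ℚ̄/K)` which is the restriction of the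
Prelude action. -/
theorem exists_bridge_torsion (H : CurveHypR O A0 A1 A01 t s) (e : A01 →ₐ[O] O)
    (j : A01 →+* modularFunctionFieldBar M)
    (hj : ∀ c : O, j (algebraMap O A01 c) =
      algebraMap Qbar (modularFunctionFieldBar M) (algebraMap O Qbar c))
    (hinj : Function.Injective (liftK (K := Qbar) A01 j hj))
    (hfrac : ∀ f : modularFunctionFieldBar M, ∃ x y : Qbar ⊗[O] A01,
      liftK (K := Qbar) A01 j hj y ≠ 0 ∧
        f * liftK (K := Qbar) A01 j hj y = liftK (K := Qbar) A01 j hj x)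
    (hK : ∀ (a : A01) (n : ℤ), ((j a : modularFunctionFieldBar M) : LaurentSeries Qbar).coeff n ∈ K)
    (n : ℤ) [MulAction (Qbar ≃ₐ[K] Qbar) ↥(Submodule.torsionBy ℤ (JZero M) n)]
    (hact : ∀ (σ : Qbar ≃ₐ[K] Qbar) (m : ↥(Submodule.torsionBy ℤ (JZero M) n)),
      ((σ • m : ↥(Submodule.torsionBy ℤ (JZero M) n)) : JZero M) =
        (σ.restrictScalars ℚ : GQ) • (m : JZero M)) :
    ∃ ι : Multiplicative ↥(Submodule.torsionBy ℤ (JZero M) n) →* ClR O A0 A1 A01 t s Qbar,
      Function.Injective ι ∧ (∀ m, ι m ∈ PicZeroR e Qbar) ∧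
      ∀ (σ : Qbar ≃ₐ[K] Qbar) (m : ↥(Submodule.torsionBy ℤ (JZero M) n)),
        ι (Multiplicative.ofAdd (σ • m)) = galActR O K σ (ι (Multiplicative.ofAdd m)) :=
  exists_bridge_of_hom M K O H e j hj hinj hfrac hK
    (Submodule.torsionBy ℤ (JZero M) n).subtype.toAddMonoidHom Subtype.val_injective hact

end Bridge

end Fermat.Agent.FFJ.Bridge.ModularBridge96
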