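/-
Programme FFJ (S19), chapter BRIDGE (helper96), file 4: the bridge from curve data embedded in the
function field `FK M K = K·F_M ⊂ K((q))` of `X₀(M)` over a subfield `K ⊂ ℚ̄` (the shape delivered by
chapter CURVE on top of RED).

Input: `O` with fraction field `K`, curve data over `O`, and an injective ring map
`j₀ : A01 → FK M K`, compatible with the constants, such that every element of `FK M K` is a fraction
of elements of `j₀ A01`.  Output: the BRIDGE of `ModularBridge96` (no further hypotheses):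

* `hinj` : `ℚ̄ ⊗[O] A01 → ℚ̄·F_M` is injective, by linear disjointness (`LinDisjoint96`);
* `hfrac`: `ℚ̄·F_M` is the fraction field of the image (`Subfield.closure` induction);
* `hK`   : the coefficients of `baseChangeHom` lie in `K`.
-/
import Mathlib
import Fermat.Agent.FFJ.Bridge.ModularBridge96
import Fermat.Agent.FFJ.Bridge.LinDisjoint96
import Fermat.Agent.FFJ.Pic.ChartDefR35
import Fermat.Agent.RED.DESC.PlaceExtend27

set_option autoImplicit false
set_option linter.unusedSectionVars false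
set_option linter.style.haveILetI false

open AlgebraicCurve ModularCurve TensorProduct HahnSeries

namespace Fermat.Agent.FFJ.Bridge.ModularBridgeFK96

open Fermat.Agent.FFJ.Core.ClR35 Fermat.Agent.FFJ.Core.ClRBc35 Fermat.Agent.FFJ.Spec.Spec35
  Fermat.Agent.FFJ.Bridge.FieldModel96 Fermat.Agent.FFJ.Bridge.ModularBridge96
  Fermat.Agent.RED.DESC.PlaceExtend27 Fermat.Agent.RED.DESC
open Fermat.Agent.RED.Interface4 (FK)

attribute [local instance 2000] SubalgebraClass.toAlgebra

section Coeff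

/-- coefficients of `c · y` in `L((q))`. -/
theorem coeff_algebraMap_mul {L : Type*} [Field L] (c : L) (y : LaurentSeries L) (n : ℤ) :
    (algebraMap L (LaurentSeries L) c * y).coeff n = c * y.coeff n := by
  rw [algebraMap_laurentSeries_eq_single, HahnSeries.coeff_single_zero_mul]

end Coeff

section Bridge

variable (M : ℕ) (K : IntermediateField ℚ Qbar)
  (O : Type) [CommRing O] [Algebra O K] [IsFractionRing O K] [Algebra O Qbar]
  [IsScalarTower O K Qbar]
  {A01 : Type} [CommRing A01] [Algebra O A01]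
  (j₀ : A01 →+* FK M K)
  (hj₀ : ∀ c : O, j₀ (algebraMap O A01 c) = algebraMap K (FK M K) (algebraMap O K c))

/-- the composite `A01 → K·F_M → ℚ̄·F_M`. -/
noncomputable def jBar : A01 →+* modularFunctionFieldBar M := (baseChangeHom M K).comp j₀

theorem coe_jBar (a : A01) :
    ((jBar M K j₀ a : modularFunctionFieldBar M) : LaurentSeries Qbar) =
      coeffMap (algebraMap K Qbar) ((j₀ a : FK M K) : LaurentSeries K) := rfl

include hj₀ in
theorem jBar_algebraMap (c : O) :
    jBar M K j₀ (algebraMap O A01 c) =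
      algebraMap Qbar (modularFunctionFieldBar M) (algebraMap O Qbar c) := by
  show baseChangeHom M K (j₀ (algebraMap O A01 c)) = _
  rw [hj₀, baseChangeHom_algebraMap, IsScalarTower.algebraMap_apply O K Qbar]
  rfl

theorem coeff_jBar_mem (a : A01) (n : ℤ) :
    ((jBar M K j₀ a : modularFunctionFieldBar M) : LaurentSeries Qbar).coeff n ∈ K := by
  rw [coe_jBar, coeffMap_coeff]
  exact (((j₀ a : FK M K) : LaurentSeries K).coeff n).2

/-- the `q`-expansion coefficients of `A01`, as an `O`-linear map. -/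
noncomputable def coeffLin : A01 →ₗ[O] (ℤ → K) where
  toFun a n := ((j₀ a : FK M K) : LaurentSeries K).coeff n
  map_add' a b := by
    funext n
    simp
  map_smul' r a := by
    funext n
    have h1 : j₀ (r • a) = algebraMap K (FK M K) (algebraMap O K r) * j₀ a := by
      rw [Algebra.smul_def, map_mul, hj₀]
    have h2 : ((j₀ (r • a) : FK M K) : LaurentSeries K) =
        algebraMap K (LaurentSeries K) (algebraMap O K r) * ((j₀ a : FK M K) : LaurentSeries K) := by
      rw [h1]; rfl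
    show ((j₀ (r • a) : FK M K) : LaurentSeries K).coeff n = _
    rw [h2, coeff_algebraMap_mul]
    simp [Algebra.smul_def]

theorem coeffLin_apply (a : A01) (n : ℤ) :
    coeffLin M K O j₀ hj₀ a n = ((j₀ a : FK M K) : LaurentSeries K).coeff n := rfl

theorem coeffLin_injective (hinj₀ : Function.Injective j₀) :
    Function.Injective (coeffLin M K O j₀ hj₀) := by
  intro a b hab
  apply hinj₀
  apply Subtype.ext
  apply HahnSeries.ext
  funext n
  exact congrFun hab n

/-- **(hinj)** `ℚ̄ ⊗[O] A01 → ℚ̄·F_M` is injective. -/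
theorem liftK_injective (hinj₀ : Function.Injective j₀) :
    Function.Injective (liftK (K := Qbar) A01 (jBar M K j₀) (jBar_algebraMap M K O j₀ hj₀)) := by
  set Λ := liftK (K := Qbar) A01 (jBar M K j₀) (jBar_algebraMap M K O j₀ hj₀) with hΛ
  let Φ : Qbar ⊗[O] A01 →+ (ℤ → Qbar) :=
    { toFun := fun x n => ((Λ x : modularFunctionFieldBar M) : LaurentSeries Qbar).coeff n
      map_zero' := by funext n; simp
      map_add' := fun x y => by funext n; simp }
  have hΦ : ∀ (l : Qbar) (b : A01) (n : ℤ),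
      Φ (l ⊗ₜ[O] b) n = l * algebraMap K Qbar (coeffLin M K O j₀ hj₀ b n) := by
    intro l b n
    show ((Λ (l ⊗ₜ[O] b) : modularFunctionFieldBar M) : LaurentSeries Qbar).coeff n = _
    rw [hΛ, liftK_tmul]
    have h1 : ((algebraMap Qbar (modularFunctionFieldBar M) l * jBar M K j₀ b :
        modularFunctionFieldBar M) : LaurentSeries Qbar) =
        algebraMap Qbar (LaurentSeries Qbar) l *
          ((jBar M K j₀ b : modularFunctionFieldBar M) : LaurentSeries Qbar) := rfl
    rw [h1, coeff_algebraMap_mul, coe_jBar, coeffMap_coeff, coeffLin_apply]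
  have hΦinj := LinDisjoint96.injective_of_coeff (R := O) (K₁ := K) (L := Qbar)
    (coeffLin M K O j₀ hj₀) (coeffLin_injective M K O j₀ hj₀ hinj₀) Φ hΦ
  intro x y hxy
  apply hΦinj
  funext n
  show ((Λ x : modularFunctionFieldBar M) : LaurentSeries Qbar).coeff n =
    ((Λ y : modularFunctionFieldBar M) : LaurentSeries Qbar).coeff n
  rw [hxy]

/-- **(hfrac)** `ℚ̄·F_M` is the fraction field of the image of `ℚ̄ ⊗[O] A01`. -/
theorem liftK_fraction
    (hfr : ∀ f : FK M K, ∃ x y : A01, j₀ y ≠ 0 ∧ f * j₀ y = j₀ x)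
    (f : modularFunctionFieldBar M) :
    ∃ x y : Qbar ⊗[O] A01,
      liftK (K := Qbar) A01 (jBar M K j₀) (jBar_algebraMap M K O j₀ hj₀) y ≠ 0 ∧
        f * liftK (K := Qbar) A01 (jBar M K j₀) (jBar_algebraMap M K O j₀ hj₀) y =
          liftK (K := Qbar) A01 (jBar M K j₀) (jBar_algebraMap M K O j₀ hj₀) x := by
  set Λ := liftK (K := Qbar) A01 (jBar M K j₀) (jBar_algebraMap M K O j₀ hj₀) with hΛ
  let Λ' : Qbar ⊗[O] A01 →+* LaurentSeries Qbar :=
    (modularFunctionFieldBar M).val.toRingHom.comp Λ.toRingHom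
  have hΛ' : ∀ x, Λ' x = ((Λ x : modularFunctionFieldBar M) : LaurentSeries Qbar) := fun _ => rfl
  have key := LinDisjoint96.exists_fraction_of_mem_closure Λ'
    (Set.range (algebraMap Qbar (LaurentSeries Qbar)) ∪
      (⇑(coeffEmb Qbar) '' (modularFunctionFieldFull M : Set (LaurentSeries ℚ)))) ?_
    (f : LaurentSeries Qbar) (mem_laurentBaseChange_iff.mp f.2)
  · obtain ⟨x, y, hy, hxy⟩ := key
    refine ⟨x, y, fun h0 => hy ?_, Subtype.ext ?_⟩
    · rw [hΛ', h0]; rfl
    · rw [hΛ', hΛ'] at hxy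
      exact hxy
  · rintro z (⟨c, rfl⟩ | ⟨f₀, hf₀, rfl⟩)
    · refine ⟨c ⊗ₜ[O] (1 : A01), 1, by rw [map_one]; exact one_ne_zero, ?_⟩
      rw [map_one, mul_one, hΛ', hΛ, liftK_tmul, map_one, mul_one]
      rfl
    · obtain ⟨a, b, hb, hab⟩ := hfr ⟨coeffEmb K f₀, coeffEmb_mem_laurentBaseChange K hf₀⟩
      have hab' : coeffEmb K f₀ * ((j₀ b : FK M K) : LaurentSeries K) =
          ((j₀ a : FK M K) : LaurentSeries K) := congrArg Subtype.val hab
      refine ⟨(1 : Qbar) ⊗ₜ[O] a, (1 : Qbar) ⊗ₜ[O] b, ?_, ?_⟩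
      · rw [hΛ', hΛ, liftK_one_tmul]
        intro h0
        apply hb
        have h1 : jBar M K j₀ b = 0 := Subtype.ext h0
        exact (map_eq_zero (baseChangeHom M K)).mp h1
      · rw [hΛ', hΛ', hΛ, liftK_one_tmul, liftK_one_tmul, coe_jBar, coe_jBar, ← hab', map_mul,
          CoeffDescent1.coeffMap_coeffEmb_of_algHom]

end Bridge

section Export

variable (M : ℕ) (K : IntermediateField ℚ Qbar)
  (O : Type) [CommRing O] [Algebra O K] [IsFractionRing O K] [Algebra O Qbar]
  [IsScalarTower O K Qbar]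
  {A0 A1 A01 : Type} [CommRing A0] [CommRing A1] [CommRing A01]
  [Algebra O A0] [Algebra O A1] [Algebra O A01] [Algebra A0 A01] [Algebra A1 A01]
  [IsScalarTower O A0 A01] [IsScalarTower O A1 A01] {t : A0} {s : A1}
  [IsLocalization.Away t A01] [IsLocalization.Away s A01]

omit [IsFractionRing O K] in
/-- The canonical curve hypothesis `ChartDefR35.CurveHypR` (universe `0`) implies the `v0` form
`Spec35.CurveHypR`. -/
theorem curveHypR_spec (H : Fermat.Agent.FFJ.Pic.ChartDefR35.CurveHypR O A0 A1 A01 t s) :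
    Fermat.Agent.FFJ.Spec.Spec35.CurveHypR O A0 A1 A01 t s where
  ts := H.hts
  free0 := H.coords0
  free1 := H.coords1
  dedekind0 := H.dedekind0
  dedekind1 := H.dedekind1
  dedekind01 := H.dedekind01
  h0 := fun x y h => by
    obtain ⟨c, h1, h2⟩ := H.h0 x y h
    exact ⟨c, h1.symm, h2.symm⟩

/-- **BRIDGE for curve data inside `K·F_M`** (`Spec35.CurveHypR` form). -/
theorem exists_bridge_FK (H : Fermat.Agent.FFJ.Spec.Spec35.CurveHypR O A0 A1 A01 t s) (e : A01 →ₐ[O] O)
    (j₀ : A01 →+* FK M K)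
    (hj₀ : ∀ c : O, j₀ (algebraMap O A01 c) = algebraMap K (FK M K) (algebraMap O K c))
    (hinj₀ : Function.Injective j₀)
    (hfr : ∀ f : FK M K, ∃ x y : A01, j₀ y ≠ 0 ∧ f * j₀ y = j₀ x) :
    ∃ ι : Multiplicative (JZero M) →* ClR O A0 A1 A01 t s Qbar,
      Function.Injective ι ∧ (∀ m, ι m ∈ PicZeroR e Qbar) ∧
      (∀ ξ ∈ PicZeroR e Qbar, ∃ m, ι m = ξ) ∧
      ∀ (σ : Qbar ≃ₐ[K] Qbar) (m : JZero M),
        ι (Multiplicative.ofAdd ((σ.restrictScalars ℚ : GQ) • m)) =
          galActR O K σ (ι (Multiplicative.ofAdd m)) :=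
  exists_bridge M K O H e (jBar M K j₀) (jBar_algebraMap M K O j₀ hj₀)
    (liftK_injective M K O j₀ hj₀ hinj₀) (liftK_fraction M K O j₀ hj₀ hfr)
    (coeff_jBar_mem M K j₀)

/-- **BRIDGE for a finite Galois module**, in the literal shape of the hypotheses `(ι, hinj, hmem,
hequiv)` of `Order/GeoWire77.geoInput_of_chart`: `T` any abelian group with a `G_ℚ`-action and an
injective equivariant homomorphism `f` to `J₀(M)` (e.g. `T = J₀(M)[n]` with
`Status72.torsDistribMulAction M n`, `f` the inclusion, `hact := fun _ _ => rfl`). -/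
theorem exists_bridge_FK_of_hom (H : Fermat.Agent.FFJ.Spec.Spec35.CurveHypR O A0 A1 A01 t s) (e : A01 →ₐ[O] O)
    (j₀ : A01 →+* FK M K)
    (hj₀ : ∀ c : O, j₀ (algebraMap O A01 c) = algebraMap K (FK M K) (algebraMap O K c))
    (hinj₀ : Function.Injective j₀)
    (hfr : ∀ f : FK M K, ∃ x y : A01, j₀ y ≠ 0 ∧ f * j₀ y = j₀ x)
    {T : Type} [AddCommGroup T] [SMul GQ T] (f : T →+ JZero M) (hf : Function.Injective f)
    (hact : ∀ (σ : GQ) (m : T), f (σ • m) = σ • f m) :
    ∃ ι : Multiplicative T →* ClR O A0 A1 A01 t s Qbar,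
      Function.Injective ι ∧ (∀ m, ι m ∈ PicZeroR e Qbar) ∧
      ∀ (σ : Qbar ≃ₐ[K] Qbar) (m : T),
        ι (Multiplicative.ofAdd ((σ.restrictScalars ℚ : GQ) • m)) =
          galActR O K σ (ι (Multiplicative.ofAdd m)) := by
  obtain ⟨ι, hι1, hι2, -, hι4⟩ := exists_bridge_FK M K O H e j₀ hj₀ hinj₀ hfr
  refine ⟨ι.comp (AddMonoidHom.toMultiplicative f), ?_, fun m => hι2 _, ?_⟩
  · intro a b hab
    have h1 : Multiplicative.ofAdd (f (Multiplicative.toAdd a)) =
        Multiplicative.ofAdd (f (Multiplicative.toAdd b)) := hι1 hab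
    exact Multiplicative.toAdd.injective (hf (Multiplicative.ofAdd.injective h1))
  · intro σ m
    show ι (Multiplicative.ofAdd (f ((σ.restrictScalars ℚ : GQ) • m))) = _
    rw [hact, hι4]
    rfl

/-- The same with the canonical `ChartDefR35.CurveHypR`. -/
theorem exists_bridge_FK_of_hom'
    (H : Fermat.Agent.FFJ.Pic.ChartDefR35.CurveHypR O A0 A1 A01 t s) (e : A01 →ₐ[O] O)
    (j₀ : A01 →+* FK M K)
    (hj₀ : ∀ c : O, j₀ (algebraMap O A01 c) = algebraMap K (FK M K) (algebraMap O K c))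
    (hinj₀ : Function.Injective j₀)
    (hfr : ∀ f : FK M K, ∃ x y : A01, j₀ y ≠ 0 ∧ f * j₀ y = j₀ x)
    {T : Type} [AddCommGroup T] [SMul GQ T] (f : T →+ JZero M) (hf : Function.Injective f)
    (hact : ∀ (σ : GQ) (m : T), f (σ • m) = σ • f m) :
    ∃ ι : Multiplicative T →* ClR O A0 A1 A01 t s Qbar,
      Function.Injective ι ∧ (∀ m, ι m ∈ PicZeroR e Qbar) ∧
      ∀ (σ : Qbar ≃ₐ[K] Qbar) (m : T),
        ι (Multiplicative.ofAdd ((σ.restrictScalars ℚ : GQ) • m)) =
          galActR O K σ (ι (Multiplicative.ofAdd m)) :=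
  exists_bridge_FK_of_hom M K O (curveHypR_spec O H) e j₀ hj₀ hinj₀ hfr f hf hact

end Export

end Fermat.Agent.FFJ.Bridge.ModularBridgeFK96
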