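/-
Programme FFJ (S19), chapter BRIDGE (helper96), file 5: the bridge when the overlap ring of the curve
data is a SUBALGEBRA of `FK M K` (the literal shape of CURVE's deliverable: `A01 = overlap t' B0 ⊂ FK M K`
a subalgebra over `O = A ∩ K`, containing a chart `B0` with `Frac B0 = FK M K`).
-/
import Mathlib
import Fermat.Agent.FFJ.Bridge.ModularBridgeFK96

set_option autoImplicit false
set_option linter.unusedSectionVars false
set_option linter.style.haveILetI false

open AlgebraicCurve ModularCurve TensorProduct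

namespace Fermat.Agent.FFJ.Bridge.BridgeSubalgebra96

open Fermat.Agent.FFJ.Core.ClR35 Fermat.Agent.FFJ.Core.ClRBc35 Fermat.Agent.FFJ.Spec.Spec35
  Fermat.Agent.FFJ.Bridge.ModularBridge96 Fermat.Agent.FFJ.Bridge.ModularBridgeFK96
open Fermat.Agent.RED.Interface4 (FK)

attribute [local instance 2000] SubalgebraClass.toAlgebra

variable (M : ℕ) (K : IntermediateField ℚ Qbar)
  (O : Type) [CommRing O] [Algebra O K] [IsFractionRing O K] [Algebra O Qbar]
  [IsScalarTower O K Qbar] [Algebra O (FK M K)] [IsScalarTower O K (FK M K)]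
  (B01 : Subalgebra O (FK M K))
  {A0 A1 : Type} [CommRing A0] [CommRing A1]
  [Algebra O A0] [Algebra O A1] [Algebra A0 B01] [Algebra A1 B01]
  [IsScalarTower O A0 B01] [IsScalarTower O A1 B01] {t : A0} {s : A1}
  [IsLocalization.Away t B01] [IsLocalization.Away s B01]

/-- **BRIDGE for an overlap ring `B01 ⊂ FK M K`** whose fraction field is `FK M K` (it suffices that a
subalgebra `B0 ≤ B01` has fraction field `FK M K`: RED's `TwoChartModel.frac0`). -/
theorem exists_bridge_subalgebra
    (H : Fermat.Agent.FFJ.Pic.ChartDefR35.CurveHypR O A0 A1 B01 t s) (e : B01 →ₐ[O] O)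
    (hfr : ∀ x : FK M K, ∃ a ∈ B01, ∃ b ∈ B01, b ≠ 0 ∧ x * b = a)
    {T : Type} [AddCommGroup T] [SMul GQ T] (f : T →+ JZero M) (hf : Function.Injective f)
    (hact : ∀ (σ : GQ) (m : T), f (σ • m) = σ • f m) :
    ∃ ι : Multiplicative T →* ClR O A0 A1 B01 t s Qbar,
      Function.Injective ι ∧ (∀ m, ι m ∈ PicZeroR e Qbar) ∧
      ∀ (σ : Qbar ≃ₐ[K] Qbar) (m : T),
        ι (Multiplicative.ofAdd ((σ.restrictScalars ℚ : GQ) • m)) =
          galActR O K σ (ι (Multiplicative.ofAdd m)) := by
  refine exists_bridge_FK_of_hom' M K O H e B01.val.toRingHom ?_ Subtype.val_injective ?_ f hf hact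
  · intro c
    show algebraMap O (FK M K) c = _
    rw [IsScalarTower.algebraMap_apply O K (FK M K)]
  · intro x
    obtain ⟨a, ha, b, hb, hb0, hab⟩ := hfr x
    refine ⟨⟨a, ha⟩, ⟨b, hb⟩, hb0, hab⟩

end Fermat.Agent.FFJ.Bridge.BridgeSubalgebra96
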