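/-
Programme FFJ (S19), chapter Bridge.  Owner: helper85.

EQUIVARIANCE OF `Pic0 K F ≃ (classes of line diagrams of degree zero)` UNDER SEMILINEAR
AUTOMORPHISMS.

In the common two-chart setting of `JAC/Fibre/DiagOfDiv38` (`B₀`, `B₁`, `B₀₁` Dedekind domains with
fraction field `F`, glued along `B₀₁ = B₀[1/t] = B₁[1/s]`), let `g` be a semilinear automorphism of
`F/K` (`AlgebraicCurve.SemilinearAut K F`) which preserves the three chart rings: there is an
endomorphism `ψ` of the two-chart family (surjective on the three rings) with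
`g (b) = ψ_i b` inside `F`.  Then `f ↦ g f` is a cartesian morphism `O(D) ⟶ O(g • D)` over `ψ`,
hence the base change along `ψ` of the class of `O(D)` is the class of `O(g • D)`, and the
identification `PicZero38.pic0Equiv` intertwines the action of `g` on `Pic0 K F` (the one of the
Prelude, used for `JZero N`) with base change along `ψ`.

For the constant family `B_i = K ⊗[k] A_i` over a base ring `k` and `ψ = σ ⊗ id` with
`σ : K →ₐ[k] K` this says: **the Galois action on `Pic0` is `ClR35.bcR σ`**.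
-/
import Mathlib
import Fermat.Prelude.Def_AlgebraicCurve_BaseChangeGalois
import Fermat.Agent.JAC.Fibre.PicZero38
import Fermat.Agent.JAC.Grp.Cart33
import Fermat.Agent.FFJ.Core.ClRBc35

set_option autoImplicit false
set_option linter.unusedSectionVars false
set_option linter.style.haveILetI false

open AlgebraicCurve IsDedekindDomain TensorProduct

namespace Fermat.Agent.FFJ.Bridge.Equivariant85

open Fermat.Agent.JAC.Fibre.Lat38 Fermat.Agent.JAC.Fibre.Core38 Fermat.Agent.JAC.Fibre.Chart38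
  Fermat.Agent.JAC.Fibre.Setting38 Fermat.Agent.JAC.Fibre.DiagOfDiv38
  Fermat.Agent.JAC.Fibre.DiagPrin38 Fermat.Agent.JAC.Fibre.DegAdd38
  Fermat.Agent.JAC.Fibre.PicZero38
  Fermat.Agent.JAC.Core.Defs36 Fermat.Agent.JAC.Core.Cart36 Fermat.Agent.JAC.Grp.Diag33
  Fermat.Agent.JAC.Grp.Cart33 Fermat.Agent.JAC.Core.Degree36

universe u

/-! ### Bijective semilinear maps are base changes -/

section BaseChange

variable {R R' : Type u} [CommRing R] [CommRing R'] {φ : R →+* R'}
  {P P' : Type u} [AddCommGroup P] [Module R P] [AddCommGroup P'] [Module R' P']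

/-- A bijective semilinear map over a surjective ring homomorphism is a base change. -/
theorem isBaseChangeHom_of_bijective (hφ : Function.Surjective φ) (θ : P →ₛₗ[φ] P')
    (hθ : Function.Bijective θ) : IsBaseChangeHom θ := by
  intro Q _ _ g
  let e : P ≃ P' := Equiv.ofBijective θ hθ
  have he : ∀ y, θ (e.symm y) = y := fun y => e.apply_symm_apply y
  have he' : ∀ x, e.symm (θ x) = x := fun x => e.symm_apply_apply x
  let g' : P' →ₗ[R'] Q :=
    { toFun := fun y => g (e.symm y)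
      map_add' := fun y y' => by
        rw [← g.map_add]
        congr 1
        apply hθ.1
        rw [θ.map_add, he, he, he]
      map_smul' := fun r' y => by
        obtain ⟨r, rfl⟩ := hφ r'
        rw [RingHom.id_apply, ← g.map_smulₛₗ]
        congr 1
        apply hθ.1
        rw [θ.map_smulₛₗ, he, he] }
  refine ⟨g', fun x => ?_, fun b hb => ?_⟩
  · show g (e.symm (θ x)) = g x
    rw [he']
  · ext y
    show b y = g (e.symm y)
    rw [← hb, he]

end BaseChange

/-! ### Action on places, charts and lattices -/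

section Places

variable {K : Type u} {F : Type u} [Field K] [Field F] [Algebra K F]

open scoped Pointwise

theorem smul_eq_zero_iff' (g : SemilinearAut K F) (f : F) : g • f = 0 ↔ f = 0 := by
  rw [SemilinearAut.smul_def]
  exact map_eq_zero_iff _ (SemilinearAut.toRingAut g).injective

/-- Membership in a lattice is transported by a semilinear automorphism preserving the set of
places. -/
theorem smul_mem_lat_iff (g : SemilinearAut K F) {U : Set (Place K F)}
    (hU : ∀ v, g • v ∈ U ↔ v ∈ U) (D : Divisor K F) (f : F) :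
    g • f ∈ lat U (g • D) ↔ f ∈ lat U D := by
  rw [mem_lat_iff_ord, mem_lat_iff_ord]
  constructor
  · intro h v hv
    have := h (g • v) ((hU v).mpr hv)
    rwa [smul_eq_zero_iff', SemilinearAut.divisor_smul_apply_smul, SemilinearAut.ord_smul] at this
  · intro h w hw
    have hw' : g • (g⁻¹ • w) = w := smul_inv_smul g w
    have hv : g⁻¹ • w ∈ U := (hU _).mp (by rw [hw']; exact hw)
    have := h (g⁻¹ • w) hv
    rw [← hw', smul_eq_zero_iff', SemilinearAut.divisor_smul_apply_smul, SemilinearAut.ord_smul]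
    exact this

variable {B : Type u} [CommRing B] [IsDedekindDomain B] [Algebra B F] [IsFractionRing B F]
  [Algebra K B] [IsScalarTower K B F]

/-- A semilinear automorphism preserving a chart ring preserves its set of places. -/
theorem smul_mem_chartSet_iff (g : SemilinearAut K F) (γ : B →+* B) (hγ : Function.Surjective γ)
    (h : ∀ b, g • algebraMap B F b = algebraMap B F (γ b)) (v : Place K F) :
    g • v ∈ chartSet (K := K) (F := F) B ↔ v ∈ chartSet (K := K) (F := F) B := by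
  constructor
  · intro hv b
    have h1 := hv (γ b)
    rw [SemilinearAut.smul_toValuationSubring, ← h b] at h1
    exact (ValuationSubring.smul_mem_pointwise_smul_iff (g := g)).mp h1
  · intro hv b
    obtain ⟨b', rfl⟩ := hγ b
    rw [SemilinearAut.smul_toValuationSubring, ← h b']
    exact ValuationSubring.smul_mem_pointwise_smul g _ _ (hv b')

theorem smul_mem_latMod_iff (g : SemilinearAut K F) (γ : B →+* B) (hγ : Function.Surjective γ)
    (h : ∀ b, g • algebraMap B F b = algebraMap B F (γ b)) (D : Divisor K F) (f : F) :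
    g • f ∈ latMod B (g • D) ↔ f ∈ latMod B D := by
  rw [mem_latMod_iff, mem_latMod_iff]
  exact smul_mem_lat_iff g (smul_mem_chartSet_iff g γ hγ h) D f

/-- `f ↦ g f` on the lattice of a chart, semilinear over the automorphism of the chart ring. -/
noncomputable def latMap (g : SemilinearAut K F) (γ : B →+* B) (hγ : Function.Surjective γ)
    (h : ∀ b, g • algebraMap B F b = algebraMap B F (γ b)) (D : Divisor K F) :
    ↥(latMod B D) →ₛₗ[γ] ↥(latMod B (g • D)) where
  toFun f := ⟨g • (f : F), (smul_mem_latMod_iff g γ hγ h D f).mpr f.2⟩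
  map_add' f f' := Subtype.ext (smul_add g (f : F) (f' : F))
  map_smul' b f := by
    apply Subtype.ext
    show g • (b • (f : F)) = γ b • (g • (f : F))
    rw [Algebra.smul_def, Algebra.smul_def, smul_mul', h]

@[simp] theorem coe_latMap (g : SemilinearAut K F) (γ : B →+* B) (hγ : Function.Surjective γ)
    (h : ∀ b, g • algebraMap B F b = algebraMap B F (γ b)) (D : Divisor K F)
    (f : ↥(latMod B D)) : ((latMap g γ hγ h D f : ↥(latMod B (g • D))) : F) = g • (f : F) := rfl

theorem latMap_bijective (g : SemilinearAut K F) (γ : B →+* B) (hγ : Function.Surjective γ)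
    (h : ∀ b, g • algebraMap B F b = algebraMap B F (γ b)) (D : Divisor K F) :
    Function.Bijective (latMap g γ hγ h D) := by
  constructor
  · intro f f' hff'
    apply Subtype.ext
    have := congrArg (Subtype.val : ↥(latMod B (g • D)) → F) hff'
    exact MulAction.injective g this
  · intro y
    have hy : g • (g⁻¹ • (y : F)) = (y : F) := smul_inv_smul g _
    refine ⟨⟨g⁻¹ • (y : F), (smul_mem_latMod_iff g γ hγ h D _).mp (by rw [hy]; exact y.2)⟩, ?_⟩
    exact Subtype.ext hy

theorem isBaseChangeHom_latMap (g : SemilinearAut K F) (γ : B →+* B) (hγ : Function.Surjective γ)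
    (h : ∀ b, g • algebraMap B F b = algebraMap B F (γ b)) (D : Divisor K F) :
    IsBaseChangeHom (latMap g γ hγ h D) :=
  isBaseChangeHom_of_bijective hγ _ (latMap_bijective g γ hγ h D)

end Places

/-! ### The two-chart setting -/

section TwoCharts

variable {K : Type u} {F : Type u} [Field K] [Field F] [Algebra K F]
  {B₀ : Type u} [CommRing B₀] [IsDedekindDomain B₀] [Algebra B₀ F] [IsFractionRing B₀ F]
  [Algebra K B₀] [IsScalarTower K B₀ F]
  {B₁ : Type u} [CommRing B₁] [IsDedekindDomain B₁] [Algebra B₁ F] [IsFractionRing B₁ F]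
  [Algebra K B₁] [IsScalarTower K B₁ F]
  {B₀₁ : Type u} [CommRing B₀₁] [IsDedekindDomain B₀₁] [Algebra B₀₁ F] [IsFractionRing B₀₁ F]
  [Algebra K B₀₁] [IsScalarTower K B₀₁ F]
  [Algebra B₀ B₀₁] [Algebra B₁ B₀₁] [IsScalarTower B₀ B₀₁ F] [IsScalarTower B₁ B₀₁ F]
  [IsScalarTower K B₀ B₀₁] [IsScalarTower K B₁ B₀₁]
  {t : B₀} {s : B₁} [IsLocalization.Away t B₀₁] [IsLocalization.Away s B₀₁]

/-- A semilinear automorphism of `F/K` is *compatible* with an endomorphism of the two-chart
family if it induces it on the three chart rings, and the latter are surjective. -/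
structure IsCompatible (g : SemilinearAut K F) (ψ : FamilyHom t s t s B₀₁ B₀₁) : Prop where
  surj0 : Function.Surjective ψ.ψ0
  surj1 : Function.Surjective ψ.ψ1
  surj01 : Function.Surjective ψ.ψ01
  smul0 : ∀ b, g • algebraMap B₀ F b = algebraMap B₀ F (ψ.ψ0 b)
  smul1 : ∀ b, g • algebraMap B₁ F b = algebraMap B₁ F (ψ.ψ1 b)
  smul01 : ∀ b, g • algebraMap B₀₁ F b = algebraMap B₀₁ F (ψ.ψ01 b)

variable {g : SemilinearAut K F} {ψ : FamilyHom t s t s B₀₁ B₀₁}

/-- **`f ↦ g f` is a cartesian morphism `O(D) ⟶ O(g • D)`.** -/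
noncomputable def cartHomSmul (hg : IsCompatible g ψ) (S : IsSetting K F t s B₀₁)
    (D : Divisor K F) :
    LineDiag.CartHom ψ (lineDiagOfDiv S D) (lineDiagOfDiv S (g • D)) where
  f0 := latMap g ψ.ψ0 hg.surj0 hg.smul0 D
  f1 := latMap g ψ.ψ1 hg.surj1 hg.smul1 D
  f01 := latMap g ψ.ψ01 hg.surj01 hg.smul01 D
  comm0 _ := Subtype.ext rfl
  comm1 _ := Subtype.ext rfl
  cart0 := isBaseChangeHom_latMap g ψ.ψ0 hg.surj0 hg.smul0 D
  cart1 := isBaseChangeHom_latMap g ψ.ψ1 hg.surj1 hg.smul1 D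
  cart01 := isBaseChangeHom_latMap g ψ.ψ01 hg.surj01 hg.smul01 D

/-- **Base change along `ψ` of the class of `O(D)` is the class of `O(g • D)`.** -/
theorem baseChangeClass_cls_lineDiagOfDiv (hg : IsCompatible g ψ) (S : IsSetting K F t s B₀₁)
    (D : Divisor K F) :
    baseChangeClass ψ (cls (lineDiagOfDiv S D)) = cls (lineDiagOfDiv S (g • D)) :=
  (baseChangeClass_cls_eq_iff ψ _ _).mpr ⟨cartHomSmul hg S D⟩

/-- Base change along a compatible endomorphism preserves the degree. -/
theorem degClass_baseChangeClass (hg : IsCompatible g ψ) (S : IsSetting K F t s B₀₁)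
    (T : TwoChart (chartSet (K := K) (F := F) B₀) (chartSet (K := K) (F := F) B₁))
    (x : LineDiag.Classes t s B₀₁) :
    degClass K (baseChangeClass ψ x) = degClass K x := by
  obtain ⟨D, rfl, hD⟩ := exists_divisor_of_class S T x
  rw [baseChangeClass_cls_lineDiagOfDiv hg S D, degClass_cls_lineDiagOfDiv S T,
    degClass_cls_lineDiagOfDiv S T, SemilinearAut.degree_smul]

theorem baseChangeClass_mem_ker (hg : IsCompatible g ψ) (S : IsSetting K F t s B₀₁)
    (T : TwoChart (chartSet (K := K) (F := F) B₀) (chartSet (K := K) (F := F) B₁))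
    {x : LineDiag.Classes t s B₀₁} (hx : x ∈ (degHom S T).ker) :
    baseChangeClass ψ x ∈ (degHom S T).ker := by
  rw [mem_ker_degHom] at hx ⊢
  rw [degClass_baseChangeClass hg S T, hx]

/-- **`pic0Equiv` intertwines the action of `g` on `Pic0 K F` with base change along `ψ`.** -/
theorem pic0Equiv_smul (hg : IsCompatible g ψ) (S : IsSetting K F t s B₀₁)
    (T : TwoChart (chartSet (K := K) (F := F) B₀) (chartSet (K := K) (F := F) B₁))
    (x : Pic0 K F) :
    ((Additive.toMul (pic0Equiv S T (g • x)) : ↥(degHom S T).ker) : LineDiag.Classes t s B₀₁) =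
      baseChangeClass ψ
        ((Additive.toMul (pic0Equiv S T x) : ↥(degHom S T).ker) : LineDiag.Classes t s B₀₁) := by
  obtain ⟨D, rfl⟩ := Pic0.mk_surjective x
  rw [SemilinearAut.pic0_smul_mk, pic0Equiv_mk, pic0Equiv_mk, clsOfDegZero_coe, clsOfDegZero_coe,
    baseChangeClass_cls_lineDiagOfDiv hg S]
  rfl

/-- The same, on the inverse: the class of degree zero `baseChangeClass ψ ξ` corresponds to
`g • (point of ξ)`. -/
theorem pic0Equiv_symm_baseChangeClass (hg : IsCompatible g ψ) (S : IsSetting K F t s B₀₁)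
    (T : TwoChart (chartSet (K := K) (F := F) B₀) (chartSet (K := K) (F := F) B₁))
    (ξ : ↥(degHom S T).ker) :
    (pic0Equiv S T).symm (Additive.ofMul
        ⟨baseChangeClass ψ (ξ : LineDiag.Classes t s B₀₁), baseChangeClass_mem_ker hg S T ξ.2⟩) =
      g • (pic0Equiv S T).symm (Additive.ofMul ξ) := by
  apply (pic0Equiv S T).injective
  rw [AddEquiv.apply_symm_apply]
  apply Additive.toMul.injective
  apply Subtype.ext
  rw [pic0Equiv_smul hg S T, AddEquiv.apply_symm_apply]
  rfl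

end TwoCharts

/-! ### The constant family `K ⊗[k] A_i` over a base ring `k` -/

section Const

open scoped Fermat.Agent.JAC.Core.ConstFamily36
open Fermat.Agent.JAC.Core.ConstFamily36 Fermat.Agent.FFJ.Core.ClR35 Fermat.Agent.FFJ.Core.ClRBc35

variable {k : Type u} [CommRing k] {A0 A1 A01 : Type u} [CommRing A0] [CommRing A1] [CommRing A01]
  [Algebra k A0] [Algebra k A1] [Algebra k A01] [Algebra A0 A01] [Algebra A1 A01]
  [IsScalarTower k A0 A01] [IsScalarTower k A1 A01] {t : A0} {s : A1}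
  [IsLocalization.Away t A01] [IsLocalization.Away s A01]
  {K : Type u} [Field K] [Algebra k K] {F : Type u} [Field F] [Algebra K F]

/-- The effect of a semilinear automorphism on the image of `K ⊗[k] A` in `F`, from its effect on
the constants and on `1 ⊗ a`. -/
theorem smul_algebraMap_tensor (A : Type u) [CommRing A] [Algebra k A]
    [Algebra (K ⊗[k] A) F] [IsScalarTower K (K ⊗[k] A) F]
    (g : SemilinearAut K F) (σ : K →ₐ[k] K) (hσ : ∀ b, SemilinearAut.baseAut g b = σ b)
    (h : ∀ a : A, g • algebraMap (K ⊗[k] A) F ((1 : K) ⊗ₜ[k] a) =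
      algebraMap (K ⊗[k] A) F ((1 : K) ⊗ₜ[k] a)) (x : K ⊗[k] A) :
    g • algebraMap (K ⊗[k] A) F x =
      algebraMap (K ⊗[k] A) F ((Algebra.TensorProduct.map σ (AlgHom.id k A)).toRingHom x) := by
  induction x using TensorProduct.induction_on with
  | zero => simp
  | tmul b a =>
    have hb : ∀ c : K, (c ⊗ₜ[k] a : K ⊗[k] A) = c • ((1 : K) ⊗ₜ[k] a) := fun c => by
      rw [TensorProduct.smul_tmul', smul_eq_mul, mul_one]
    show g • algebraMap (K ⊗[k] A) F (b ⊗ₜ[k] a) = algebraMap (K ⊗[k] A) F (σ b ⊗ₜ[k] a)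
    rw [hb b, hb (σ b), Algebra.smul_def, Algebra.smul_def, map_mul, map_mul, smul_mul', h,
      ← IsScalarTower.algebraMap_apply K (K ⊗[k] A) F, ← IsScalarTower.algebraMap_apply K (K ⊗[k] A) F,
      SemilinearAut.smul_algebraMap, hσ]
  | add x y hx hy => rw [map_add, smul_add, hx, hy, map_add, map_add]

theorem surjective_of_baseAut (g : SemilinearAut K F) (σ : K →ₐ[k] K)
    (hσ : ∀ b, SemilinearAut.baseAut g b = σ b) : Function.Surjective σ := fun b =>
  ⟨(SemilinearAut.baseAut g).symm b, by rw [← hσ, RingEquiv.apply_symm_apply]⟩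

theorem surjective_tensorMap (A : Type u) [CommRing A] [Algebra k A] (σ : K →ₐ[k] K)
    (hσ : Function.Surjective σ) :
    Function.Surjective (Algebra.TensorProduct.map σ (AlgHom.id k A)).toRingHom :=
  Algebra.TensorProduct.map_surjective σ (AlgHom.id k A) hσ Function.surjective_id

variable [IsDedekindDomain (K ⊗[k] A0)] [IsDedekindDomain (K ⊗[k] A1)]
  [IsDedekindDomain (K ⊗[k] A01)]
  [Algebra (K ⊗[k] A0) F] [Algebra (K ⊗[k] A1) F] [Algebra (K ⊗[k] A01) F]
  [IsFractionRing (K ⊗[k] A0) F] [IsFractionRing (K ⊗[k] A1) F] [IsFractionRing (K ⊗[k] A01) F]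
  [IsScalarTower K (K ⊗[k] A0) F] [IsScalarTower K (K ⊗[k] A1) F] [IsScalarTower K (K ⊗[k] A01) F]
  [IsScalarTower (K ⊗[k] A0) (K ⊗[k] A01) F] [IsScalarTower (K ⊗[k] A1) (K ⊗[k] A01) F]

/-- A semilinear automorphism of `F/K` which induces `σ` on the constants and fixes the images of
`A0`, `A1`, `A01` is compatible with the endomorphism `σ ⊗ id` of the constant family. -/
theorem isCompatible_familyHom (g : SemilinearAut K F) (σ : K →ₐ[k] K)
    (hσ : ∀ b, SemilinearAut.baseAut g b = σ b)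
    (h0 : ∀ a : A0, g • algebraMap (K ⊗[k] A0) F ((1 : K) ⊗ₜ[k] a) =
      algebraMap (K ⊗[k] A0) F ((1 : K) ⊗ₜ[k] a))
    (h1 : ∀ a : A1, g • algebraMap (K ⊗[k] A1) F ((1 : K) ⊗ₜ[k] a) =
      algebraMap (K ⊗[k] A1) F ((1 : K) ⊗ₜ[k] a))
    (h01 : ∀ a : A01, g • algebraMap (K ⊗[k] A01) F ((1 : K) ⊗ₜ[k] a) =
      algebraMap (K ⊗[k] A01) F ((1 : K) ⊗ₜ[k] a)) :
    IsCompatible g (familyHom σ t s : FamilyHom ((1 : K) ⊗ₜ[k] t) ((1 : K) ⊗ₜ[k] s)
      ((1 : K) ⊗ₜ[k] t) ((1 : K) ⊗ₜ[k] s) (K ⊗[k] A01) (K ⊗[k] A01)) where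
  surj0 := surjective_tensorMap A0 σ (surjective_of_baseAut g σ hσ)
  surj1 := surjective_tensorMap A1 σ (surjective_of_baseAut g σ hσ)
  surj01 := surjective_tensorMap A01 σ (surjective_of_baseAut g σ hσ)
  smul0 := smul_algebraMap_tensor A0 g σ hσ h0
  smul1 := smul_algebraMap_tensor A1 g σ hσ h1
  smul01 := smul_algebraMap_tensor A01 g σ hσ h01

/-- **The Galois action on `Pic0 K F` is `bcR σ` on the classes of line diagrams.** -/
theorem pic0Equiv_smul_bcR (g : SemilinearAut K F) (σ : K →ₐ[k] K)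
    (hσ : ∀ b, SemilinearAut.baseAut g b = σ b)
    (h0 : ∀ a : A0, g • algebraMap (K ⊗[k] A0) F ((1 : K) ⊗ₜ[k] a) =
      algebraMap (K ⊗[k] A0) F ((1 : K) ⊗ₜ[k] a))
    (h1 : ∀ a : A1, g • algebraMap (K ⊗[k] A1) F ((1 : K) ⊗ₜ[k] a) =
      algebraMap (K ⊗[k] A1) F ((1 : K) ⊗ₜ[k] a))
    (h01 : ∀ a : A01, g • algebraMap (K ⊗[k] A01) F ((1 : K) ⊗ₜ[k] a) =
      algebraMap (K ⊗[k] A01) F ((1 : K) ⊗ₜ[k] a))
    (S : IsSetting K F ((1 : K) ⊗ₜ[k] t) ((1 : K) ⊗ₜ[k] s) (K ⊗[k] A01))
    (T : TwoChart (chartSet (K := K) (F := F) (K ⊗[k] A0))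
      (chartSet (K := K) (F := F) (K ⊗[k] A1)))
    (x : Pic0 K F) :
    ((Additive.toMul (pic0Equiv S T (g • x)) : ↥(degHom S T).ker) : ClR k A0 A1 A01 t s K) =
      bcR σ ((Additive.toMul (pic0Equiv S T x) : ↥(degHom S T).ker) : ClR k A0 A1 A01 t s K) := by
  rw [bcR_eq_baseChangeClass]
  exact pic0Equiv_smul (isCompatible_familyHom g σ hσ h0 h1 h01) S T x

/-- `bcR σ` preserves the classes of degree zero. -/
theorem bcR_mem_ker (g : SemilinearAut K F) (σ : K →ₐ[k] K)
    (hσ : ∀ b, SemilinearAut.baseAut g b = σ b)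
    (h0 : ∀ a : A0, g • algebraMap (K ⊗[k] A0) F ((1 : K) ⊗ₜ[k] a) =
      algebraMap (K ⊗[k] A0) F ((1 : K) ⊗ₜ[k] a))
    (h1 : ∀ a : A1, g • algebraMap (K ⊗[k] A1) F ((1 : K) ⊗ₜ[k] a) =
      algebraMap (K ⊗[k] A1) F ((1 : K) ⊗ₜ[k] a))
    (h01 : ∀ a : A01, g • algebraMap (K ⊗[k] A01) F ((1 : K) ⊗ₜ[k] a) =
      algebraMap (K ⊗[k] A01) F ((1 : K) ⊗ₜ[k] a))
    (S : IsSetting K F ((1 : K) ⊗ₜ[k] t) ((1 : K) ⊗ₜ[k] s) (K ⊗[k] A01))
    (T : TwoChart (chartSet (K := K) (F := F) (K ⊗[k] A0))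
      (chartSet (K := K) (F := F) (K ⊗[k] A1)))
    {ξ : ClR k A0 A1 A01 t s K} (hξ : ξ ∈ (degHom S T).ker) :
    bcR σ ξ ∈ (degHom S T).ker := by
  rw [bcR_eq_baseChangeClass]
  exact baseChangeClass_mem_ker (isCompatible_familyHom g σ hσ h0 h1 h01) S T hξ

/-- Inverse form: the point of `Pic0 K F` of `bcR σ ξ` is `g •` the point of `ξ`. -/
theorem pic0Equiv_symm_bcR (g : SemilinearAut K F) (σ : K →ₐ[k] K)
    (hσ : ∀ b, SemilinearAut.baseAut g b = σ b)
    (h0 : ∀ a : A0, g • algebraMap (K ⊗[k] A0) F ((1 : K) ⊗ₜ[k] a) =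
      algebraMap (K ⊗[k] A0) F ((1 : K) ⊗ₜ[k] a))
    (h1 : ∀ a : A1, g • algebraMap (K ⊗[k] A1) F ((1 : K) ⊗ₜ[k] a) =
      algebraMap (K ⊗[k] A1) F ((1 : K) ⊗ₜ[k] a))
    (h01 : ∀ a : A01, g • algebraMap (K ⊗[k] A01) F ((1 : K) ⊗ₜ[k] a) =
      algebraMap (K ⊗[k] A01) F ((1 : K) ⊗ₜ[k] a))
    (S : IsSetting K F ((1 : K) ⊗ₜ[k] t) ((1 : K) ⊗ₜ[k] s) (K ⊗[k] A01))
    (T : TwoChart (chartSet (K := K) (F := F) (K ⊗[k] A0))
      (chartSet (K := K) (F := F) (K ⊗[k] A1)))
    (ξ : ↥(degHom S T).ker) :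
    (pic0Equiv S T).symm (Additive.ofMul
        ⟨bcR σ (ξ : ClR k A0 A1 A01 t s K), bcR_mem_ker g σ hσ h0 h1 h01 S T ξ.2⟩) =
      g • (pic0Equiv S T).symm (Additive.ofMul ξ) := by
  apply (pic0Equiv S T).injective
  rw [AddEquiv.apply_symm_apply]
  apply Additive.toMul.injective
  apply Subtype.ext
  rw [pic0Equiv_smul_bcR g σ hσ h0 h1 h01 S T, AddEquiv.apply_symm_apply]
  rfl

end Const

end Fermat.Agent.FFJ.Bridge.Equivariant85
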