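/-
Programme FFJ (S19), chapter BRIDGE (helper96), generic part 2: in the common setting of
`JAC/Fibre/DiagOfDiv38` (two Dedekind charts of a function field `F / K`),

* `pic0Equiv S T : Pic0 K F ≃+ Additive (degree-zero classes of line diagrams)`
  (Prelude's `Pic0` on the left);
* `pic0Equiv_smul` : the semilinear action of Prelude on `Pic0 K F` corresponds to the base change
  of line diagrams along a compatible isomorphism of settings (`SettingEquiv96`).
-/
import Mathlib
import Fermat.Agent.FFJ.Bridge.SettingEquiv96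
import Fermat.Agent.JAC.Fibre.DegAdd38

set_option autoImplicit false
set_option linter.unusedSectionVars false

open AlgebraicCurve IsDedekindDomain WithZero Polynomial nonZeroDivisors TensorProduct

namespace Fermat.Agent.FFJ.Bridge.PicZeroEquiv96

open Fermat.Agent.JAC.Fibre.Lat38 Fermat.Agent.JAC.Fibre.Core38 Fermat.Agent.JAC.Fibre.Chart38
  Fermat.Agent.JAC.Fibre.Setting38 Fermat.Agent.JAC.Fibre.DiagOfDiv38
  Fermat.Agent.JAC.Fibre.DiagOps38 Fermat.Agent.JAC.Fibre.DiagPrin38
  Fermat.Agent.JAC.Fibre.DegAdd38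
  Fermat.Agent.JAC.Core.Defs36 Fermat.Agent.JAC.Grp.Diag33 Fermat.Agent.JAC.Grp.BaseChange33
  Fermat.Agent.JAC.Core.Degree36
  Fermat.Agent.FFJ.Bridge.SettingEquiv96

universe u

variable {K : Type u} {F : Type u} [Field K] [Field F] [Algebra K F]
  {B₀ : Type u} [CommRing B₀] [IsDedekindDomain B₀] [Algebra B₀ F] [IsFractionRing B₀ F]
  [Algebra K B₀] [IsScalarTower K B₀ F]
  {B₁ : Type u} [CommRing B₁] [IsDedekindDomain B₁] [Algebra B₁ F] [IsFractionRing B₁ F]
  [Algebra K B₁] [IsScalarTower K B₁ F]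
  {B₀₁ : Type u} [CommRing B₀₁] [IsDedekindDomain B₀₁] [Algebra B₀₁ F] [IsFractionRing B₀₁ F]
  [Algebra K B₀₁] [IsScalarTower K B₀₁ F]
  [Algebra B₀ B₀₁] [Algebra B₁ B₀₁] [IsScalarTower B₀ B₀₁ F] [IsScalarTower B₁ B₀₁ F]
  [IsScalarTower K B₀ B₀₁] [IsScalarTower K B₁ B₀₁]
  {t : B₀} {s : B₁} [IsLocalization.Away t B₀₁] [IsLocalization.Away s B₀₁]

section Equiv

variable (S : IsSetting K F t s B₀₁)
  (T : TwoChart (chartSet (K := K) (F := F) B₀) (chartSet (K := K) (F := F) B₁))

/-- The classes of degree zero. -/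
noncomputable def degZeroClasses : Subgroup (LineDiag.Classes t s B₀₁) := (degHom S T).ker

theorem mem_degZeroClasses_iff {x : LineDiag.Classes t s B₀₁} :
    x ∈ degZeroClasses S T ↔ degClass K x = 0 := by
  rw [degZeroClasses, MonoidHom.mem_ker]
  exact Iff.rfl

theorem cls_mem_degZeroClasses (D : Divisor.degZero (K := K) (F := F)) :
    cls (lineDiagOfDiv S (D : Divisor K F)) ∈ degZeroClasses S T := by
  rw [mem_degZeroClasses_iff, degClass_cls_lineDiagOfDiv S T]
  exact D.2

/-- `D ↦ [O(D)]` on divisors of degree zero. -/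
noncomputable def clsOfDegZero :
    Divisor.degZero (K := K) (F := F) →+ Additive ↥(degZeroClasses S T) where
  toFun D := Additive.ofMul ⟨cls (lineDiagOfDiv S (D : Divisor K F)), cls_mem_degZeroClasses S T D⟩
  map_zero' := by
    apply congrArg Additive.ofMul
    apply Subtype.ext
    exact cls_lineDiagOfDiv_zero S
  map_add' D D' := by
    apply congrArg Additive.ofMul
    apply Subtype.ext
    exact (cls_mul_lineDiagOfDiv S _ _).symm

theorem coe_clsOfDegZero (D : Divisor.degZero (K := K) (F := F)) :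
    ((Additive.toMul (clsOfDegZero S T D) : ↥(degZeroClasses S T)) : LineDiag.Classes t s B₀₁) =
      cls (lineDiagOfDiv S (D : Divisor K F)) := rfl

theorem clsOfDegZero_surjective : Function.Surjective (clsOfDegZero S T) := by
  intro ξ
  obtain ⟨D, hD, hdeg⟩ := exists_divisor_of_class S T ((Additive.toMul ξ : ↥(degZeroClasses S T)) :
    LineDiag.Classes t s B₀₁)
  have hξ := (mem_degZeroClasses_iff S T).mp (Additive.toMul ξ).2
  refine ⟨⟨D, ?_⟩, ?_⟩
  · rw [Divisor.mem_degZero, ← hdeg, hξ]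
  · apply Additive.toMul.injective
    apply Subtype.ext
    exact hD.symm

theorem ker_clsOfDegZero :
    (Divisor.principal (K := K) (F := F)).addSubgroupOf (Divisor.degZero (K := K) (F := F)) =
      (clsOfDegZero S T).ker := by
  ext D
  rw [AddSubgroup.mem_addSubgroupOf, AddMonoidHom.mem_ker]
  have h : clsOfDegZero S T D = 0 ↔
      cls (lineDiagOfDiv S (D : Divisor K F)) = cls (lineDiagOfDiv S (0 : Divisor K F)) := by
    rw [cls_lineDiagOfDiv_zero]
    constructor
    · intro h0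
      have := congrArg (fun z => ((Additive.toMul z : ↥(degZeroClasses S T)) :
        LineDiag.Classes t s B₀₁)) h0
      exact this
    · intro h0
      apply Additive.toMul.injective
      apply Subtype.ext
      exact h0
  rw [h, cls_eq_iff_principal, sub_zero]

/-- **`Pic⁰(F / K)` is the group of degree-zero classes of line diagrams.** -/
noncomputable def pic0Equiv : Pic0 K F ≃+ Additive ↥(degZeroClasses S T) :=
  QuotientAddGroup.liftEquiv _ (clsOfDegZero_surjective S T) (ker_clsOfDegZero S T)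

@[simp] theorem pic0Equiv_mk (D : Divisor.degZero (K := K) (F := F)) :
    pic0Equiv S T (Pic0.mk D) = clsOfDegZero S T D := rfl

theorem coe_pic0Equiv_mk (D : Divisor.degZero (K := K) (F := F)) :
    ((Additive.toMul (pic0Equiv S T (Pic0.mk D)) : ↥(degZeroClasses S T)) :
      LineDiag.Classes t s B₀₁) = cls (lineDiagOfDiv S (D : Divisor K F)) := rfl

end Equiv

section Equivariance

variable {C₀ : Type u} [CommRing C₀] [IsDedekindDomain C₀] [Algebra C₀ F] [IsFractionRing C₀ F]
  [Algebra K C₀] [IsScalarTower K C₀ F]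
  {C₁ : Type u} [CommRing C₁] [IsDedekindDomain C₁] [Algebra C₁ F] [IsFractionRing C₁ F]
  [Algebra K C₁] [IsScalarTower K C₁ F]
  {C₀₁ : Type u} [CommRing C₀₁] [IsDedekindDomain C₀₁] [Algebra C₀₁ F] [IsFractionRing C₀₁ F]
  [Algebra K C₀₁] [IsScalarTower K C₀₁ F]
  [Algebra C₀ C₀₁] [Algebra C₁ C₀₁] [IsScalarTower C₀ C₀₁ F] [IsScalarTower C₁ C₀₁ F]
  [IsScalarTower K C₀ C₀₁] [IsScalarTower K C₁ C₀₁]
  [Algebra B₀ C₀] [Algebra B₁ C₁] [Algebra B₀₁ C₀₁] [Algebra B₀ C₀₁] [Algebra B₁ C₀₁]
  [IsScalarTower B₀ B₀₁ C₀₁] [IsScalarTower B₀ C₀ C₀₁]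
  [IsScalarTower B₁ B₀₁ C₀₁] [IsScalarTower B₁ C₁ C₀₁]
  {t' : C₀} {s' : C₁}
  [IsLocalization.Away t' C₀₁] [IsLocalization.Away s' C₀₁]
  {g : SemilinearAut K F}

/-- **Equivariance.**  The Prelude action of a semilinear automorphism `g` on `Pic⁰(F / K)`
corresponds to the base change of line diagrams along a `g`-compatible isomorphism of
settings. -/
theorem pic0Equiv_smul (S : IsSetting K F t s B₀₁)
    (T : TwoChart (chartSet (K := K) (F := F) B₀) (chartSet (K := K) (F := F) B₁))
    (S' : IsSetting K F t' s' C₀₁)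
    (T' : TwoChart (chartSet (K := K) (F := F) C₀) (chartSet (K := K) (F := F) C₁))
    (h₀ : IsCompat g B₀ C₀) (h₁ : IsCompat g B₁ C₁) (h₀₁ : IsCompat g B₀₁ C₀₁)
    (x : Pic0 K F) :
    ((Additive.toMul (pic0Equiv S' T' (g • x)) : ↥(degZeroClasses S' T')) :
        LineDiag.Classes t' s' C₀₁) =
      baseChangeHom C₀₁ t' s'
        ((Additive.toMul (pic0Equiv S T x) : ↥(degZeroClasses S T)) :
          LineDiag.Classes t s B₀₁) := by
  obtain ⟨D, rfl⟩ := Pic0.mk_surjective x
  rw [SemilinearAut.pic0_smul_mk, coe_pic0Equiv_mk, coe_pic0Equiv_mk,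
    SemilinearAut.coe_degZeroSMulHom,
    baseChangeHom_cls_lineDiagOfDiv S S' h₀ h₁ h₀₁]

end Equivariance

end Fermat.Agent.FFJ.Bridge.PicZeroEquiv96
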