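/-
Programme FFJ (S19), chapter BRIDGE (helper96), generic part 1: base change of the line diagram
`O(D)` along a *semilinear isomorphism of settings*.

Two copies `(B₀, B₁, B₀₁; t, s)` and `(C₀, C₁, C₀₁; t', s')` of the common setting of
`JAC/Fibre/DiagOfDiv38` inside the same function field `F / K`, a semilinear automorphism
`g : SemilinearAut K F` (Prelude), and bijective ring maps `B_i → C_i` (given as `Algebra`
instances, in the shape consumed by `JAC/Grp/BaseChange33`) which are compatible with `g`.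
Then the base change of `O(D)` is `O(g • D)`:

  `baseChangeHom C₀₁ t' s' (cls (lineDiagOfDiv S D)) = cls (lineDiagOfDiv S' (g • D))`.

In FFJ this is applied with `B_i = C_i = ℚ̄ ⊗[O] A_i`, the ring maps `σ ⊗ id` and
`g = arithmeticGalois σ`; it says that the bridge `P(ℚ̄) ≃ JZero M` is Galois-equivariant.
-/
import Mathlib
import Fermat.Prelude.Def_AlgebraicCurve_BaseChangeGalois
import Fermat.Agent.JAC.Fibre.DiagPrin38
import Fermat.Agent.JAC.Grp.BaseChange33

set_option autoImplicit false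
set_option linter.unusedSectionVars false

open AlgebraicCurve IsDedekindDomain WithZero Polynomial nonZeroDivisors TensorProduct

namespace Fermat.Agent.FFJ.Bridge.SettingEquiv96

open Fermat.Agent.JAC.Fibre.Lat38 Fermat.Agent.JAC.Fibre.Core38 Fermat.Agent.JAC.Fibre.Chart38
  Fermat.Agent.JAC.Fibre.Setting38 Fermat.Agent.JAC.Fibre.DiagOfDiv38
  Fermat.Agent.JAC.Fibre.DiagPrin38
  Fermat.Agent.JAC.Core.Defs36 Fermat.Agent.JAC.Grp.Diag33 Fermat.Agent.JAC.Grp.BaseChange33

universe u

variable {K : Type u} {F : Type u} [Field K] [Field F] [Algebra K F]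

/-! ### One chart -/

section OneChart

variable {B : Type u} [CommRing B] [IsDedekindDomain B] [Algebra B F] [IsFractionRing B F]
  [Algebra K B] [IsScalarTower K B F]
  {C : Type u} [CommRing C] [IsDedekindDomain C] [Algebra C F] [IsFractionRing C F]
  [Algebra K C] [IsScalarTower K C F]
  [Algebra B C]

/-- Compatibility of a ring map `B → C` of charts with a semilinear automorphism of `F`. -/
def IsCompat (g : SemilinearAut K F) (B C : Type u) [CommRing B] [CommRing C] [Algebra B F]
    [Algebra C F] [Algebra B C] : Prop :=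
  Function.Bijective (algebraMap B C) ∧
    ∀ b : B, algebraMap C F (algebraMap B C b) = g • algebraMap B F b

variable {g : SemilinearAut K F}

theorem IsCompat.smul_mem_chartSet (h : IsCompat g B C) {v : Place K F}
    (hv : v ∈ chartSet (K := K) (F := F) B) : g • v ∈ chartSet (K := K) (F := F) C := by
  intro c
  obtain ⟨b, rfl⟩ := h.1.2 c
  rw [h.2 b, SemilinearAut.smul_toValuationSubring]
  exact ValuationSubring.smul_mem_pointwise_smul g _ _ (hv b)

theorem IsCompat.inv_smul_mem_chartSet (h : IsCompat g B C) {w : Place K F}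
    (hw : w ∈ chartSet (K := K) (F := F) C) : g⁻¹ • w ∈ chartSet (K := K) (F := F) B := by
  intro b
  have h1 := hw (algebraMap B C b)
  rw [h.2 b] at h1
  rw [SemilinearAut.smul_toValuationSubring,
    ValuationSubring.mem_pointwise_smul_iff_inv_smul_mem, inv_inv]
  exact h1

theorem IsCompat.smul_mem_lat (h : IsCompat g B C) (D : Divisor K F) {x : F}
    (hx : x ∈ lat (chartSet (K := K) (F := F) B) D) :
    g • x ∈ lat (chartSet (K := K) (F := F) C) (g • D) := by
  rw [mem_lat_iff_ord] at hx ⊢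
  intro w hw
  rcases hx (g⁻¹ • w) (h.inv_smul_mem_chartSet hw) with h0 | h1
  · left
    rw [h0, smul_zero]
  · right
    rw [SemilinearAut.divisor_smul_apply]
    have h2 := SemilinearAut.ord_smul g (g⁻¹ • w) x
    rw [smul_inv_smul] at h2
    rw [h2]
    exact h1

theorem IsCompat.inv_smul_mem_lat (h : IsCompat g B C) (D : Divisor K F) {y : F}
    (hy : y ∈ lat (chartSet (K := K) (F := F) C) (g • D)) :
    g⁻¹ • y ∈ lat (chartSet (K := K) (F := F) B) D := by
  rw [mem_lat_iff_ord] at hy ⊢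
  intro v hv
  rcases hy (g • v) (h.smul_mem_chartSet hv) with h0 | h1
  · left
    rw [h0, smul_zero]
  · right
    rw [SemilinearAut.divisor_smul_apply_smul] at h1
    have h2 := SemilinearAut.ord_smul g v (g⁻¹ • y)
    rw [smul_inv_smul] at h2
    rw [← h2]
    exact h1

/-- The `g`-semilinear bijection `lat U_B D → lat U_C (g • D)`, as an additive map. -/
noncomputable def latMap (h : IsCompat g B C) (D : Divisor K F) :
    ↥(latMod B D) →+ ↥(latMod C (g • D)) where
  toFun x := ⟨g • (x : F), mem_latMod_iff.mpr (h.smul_mem_lat D (mem_latMod_iff.mp x.2))⟩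
  map_zero' := Subtype.ext (smul_zero g)
  map_add' x y := Subtype.ext (smul_add g (x : F) (y : F))

@[simp] theorem coe_latMap (h : IsCompat g B C) (D : Divisor K F) (x : ↥(latMod B D)) :
    ((latMap h D x : ↥(latMod C (g • D))) : F) = g • (x : F) := rfl

theorem latMap_smul (h : IsCompat g B C) (D : Divisor K F) (b : B) (x : ↥(latMod B D)) :
    latMap h D (b • x) = algebraMap B C b • latMap h D x := by
  apply Subtype.ext
  show g • (b • (x : F)) = algebraMap B C b • (g • (x : F))
  rw [Algebra.smul_def, Algebra.smul_def, smul_mul', h.2 b]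

/-- The inverse of `latMap`. -/
noncomputable def latMapInv (h : IsCompat g B C) (D : Divisor K F) :
    ↥(latMod C (g • D)) →+ ↥(latMod B D) where
  toFun y := ⟨g⁻¹ • (y : F), mem_latMod_iff.mpr (h.inv_smul_mem_lat D (mem_latMod_iff.mp y.2))⟩
  map_zero' := Subtype.ext (smul_zero g⁻¹)
  map_add' x y := Subtype.ext (smul_add g⁻¹ (x : F) (y : F))

@[simp] theorem coe_latMapInv (h : IsCompat g B C) (D : Divisor K F)
    (y : ↥(latMod C (g • D))) : ((latMapInv h D y : ↥(latMod B D)) : F) = g⁻¹ • (y : F) := rfl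

/-- The forward map `C ⊗[B] lat U_B D → lat U_C (g • D)`, `c ⊗ x ↦ c • (g • x)`. -/
noncomputable def latFwd (h : IsCompat g B C) (D : Divisor K F) :
    C ⊗[B] ↥(latMod B D) →+ ↥(latMod C (g • D)) :=
  TensorProduct.liftAddHom
    { toFun := fun c => (DistribSMul.toAddMonoidHom _ c).comp (latMap h D)
      map_zero' := by
        ext x
        simp
      map_add' := fun c c' => by
        ext x
        simp [add_smul] }
    (fun b c x => by
      show (b • c) • latMap h D x = c • latMap h D (b • x)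
      rw [latMap_smul, smul_smul, Algebra.smul_def, mul_comm])

theorem latFwd_tmul (h : IsCompat g B C) (D : Divisor K F) (c : C) (x : ↥(latMod B D)) :
    latFwd h D (c ⊗ₜ x) = c • latMap h D x := rfl

/-- **One chart**: `C ⊗[B] lat U_B D ≃ₗ[C] lat U_C (g • D)`. -/
noncomputable def latEquiv (h : IsCompat g B C) (D : Divisor K F) :
    C ⊗[B] ↥(latMod B D) ≃ₗ[C] ↥(latMod C (g • D)) where
  toFun := latFwd h D
  invFun y := (1 : C) ⊗ₜ latMapInv h D y
  map_add' := map_add _
  map_smul' c z := by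
    simp only [RingHom.id_apply]
    induction z using TensorProduct.induction_on with
    | zero => simp
    | tmul c' x => rw [TensorProduct.smul_tmul', latFwd_tmul, latFwd_tmul, smul_smul, smul_eq_mul]
    | add z z' hz hz' => rw [smul_add, map_add, hz, hz', map_add, smul_add]
  left_inv z := by
    induction z using TensorProduct.induction_on with
    | zero => simp
    | tmul c x =>
      obtain ⟨b, rfl⟩ := h.1.2 c
      rw [latFwd_tmul, ← latMap_smul]
      have : latMapInv h D (latMap h D (b • x)) = b • x := by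
        apply Subtype.ext
        simp
      show (1 : C) ⊗ₜ[B] latMapInv h D (latMap h D (b • x)) = _
      rw [this, ← TensorProduct.smul_tmul]
      rw [Algebra.smul_def, mul_one]
    | add z z' hz hz' =>
      simp only [map_add, TensorProduct.tmul_add] at hz hz' ⊢
      rw [hz, hz']
  right_inv y := by
    show latFwd h D ((1 : C) ⊗ₜ latMapInv h D y) = y
    rw [latFwd_tmul, one_smul]
    apply Subtype.ext
    simp

theorem coe_latEquiv_tmul (h : IsCompat g B C) (D : Divisor K F) (c : C) (x : ↥(latMod B D)) :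
    ((latEquiv h D (c ⊗ₜ x) : ↥(latMod C (g • D))) : F) = algebraMap C F c * g • (x : F) := by
  show ((c • latMap h D x : ↥(latMod C (g • D))) : F) = _
  show c • (g • (x : F)) = _
  rw [Algebra.smul_def]

end OneChart

/-! ### Two charts -/

section TwoCharts

variable {B₀ : Type u} [CommRing B₀] [IsDedekindDomain B₀] [Algebra B₀ F] [IsFractionRing B₀ F]
  [Algebra K B₀] [IsScalarTower K B₀ F]
  {B₁ : Type u} [CommRing B₁] [IsDedekindDomain B₁] [Algebra B₁ F] [IsFractionRing B₁ F]
  [Algebra K B₁] [IsScalarTower K B₁ F]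
  {B₀₁ : Type u} [CommRing B₀₁] [IsDedekindDomain B₀₁] [Algebra B₀₁ F] [IsFractionRing B₀₁ F]
  [Algebra K B₀₁] [IsScalarTower K B₀₁ F]
  [Algebra B₀ B₀₁] [Algebra B₁ B₀₁] [IsScalarTower B₀ B₀₁ F] [IsScalarTower B₁ B₀₁ F]
  {C₀ : Type u} [CommRing C₀] [IsDedekindDomain C₀] [Algebra C₀ F] [IsFractionRing C₀ F]
  [Algebra K C₀] [IsScalarTower K C₀ F]
  {C₁ : Type u} [CommRing C₁] [IsDedekindDomain C₁] [Algebra C₁ F] [IsFractionRing C₁ F]
  [Algebra K C₁] [IsScalarTower K C₁ F]
  {C₀₁ : Type u} [CommRing C₀₁] [IsDedekindDomain C₀₁] [Algebra C₀₁ F] [IsFractionRing C₀₁ F]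
  [Algebra K C₀₁] [IsScalarTower K C₀₁ F]
  [Algebra C₀ C₀₁] [Algebra C₁ C₀₁] [IsScalarTower C₀ C₀₁ F] [IsScalarTower C₁ C₀₁ F]
  [Algebra B₀ C₀] [Algebra B₁ C₁] [Algebra B₀₁ C₀₁] [Algebra B₀ C₀₁] [Algebra B₁ C₀₁]
  [IsScalarTower B₀ B₀₁ C₀₁] [IsScalarTower B₀ C₀ C₀₁]
  [IsScalarTower B₁ B₀₁ C₀₁] [IsScalarTower B₁ C₁ C₀₁]
  {t : B₀} {s : B₁} {t' : C₀} {s' : C₁}
  [IsLocalization.Away t B₀₁] [IsLocalization.Away s B₀₁]
  [IsLocalization.Away t' C₀₁] [IsLocalization.Away s' C₀₁]
  {g : SemilinearAut K F}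

/-- The isomorphism `(C ⊗ O(D)) ≅ O(g • D)` of line diagrams. -/
noncomputable def isoBaseChange (S : IsSetting K F t s B₀₁) (S' : IsSetting K F t' s' C₀₁)
    (h₀ : IsCompat g B₀ C₀) (h₁ : IsCompat g B₁ C₁) (h₀₁ : IsCompat g B₀₁ C₀₁)
    (D : Divisor K F) :
    LineDiag.Iso (baseChange C₀₁ t' s' (lineDiagOfDiv S D)) (lineDiagOfDiv S' (g • D)) where
  e0 := latEquiv h₀ D
  e1 := latEquiv h₁ D
  e01 := latEquiv h₀₁ D
  comm0 := by
    change ∀ z : C₀ ⊗[B₀] ↥(latMod B₀ D),
      latEquiv h₀₁ D (baseChangeMap (T := C₀) (T' := C₀₁) (R' := B₀₁)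
        (rho (B₀ := B₀) (B₀₁ := B₀₁) D) z) =
      rho (B₀ := C₀) (B₀₁ := C₀₁) (g • D) (latEquiv h₀ D z)
    intro z
    induction z using TensorProduct.induction_on with
    | zero => rw [map_zero, map_zero, map_zero, map_zero]
    | tmul c x =>
      apply Subtype.ext
      rw [baseChangeMap_tmul, coe_rho, coe_latEquiv_tmul, coe_latEquiv_tmul, coe_rho,
        ← IsScalarTower.algebraMap_apply C₀ C₀₁ F]
    | add z z' hz hz' => rw [map_add, map_add, map_add, map_add, hz, hz']
  comm1 := by
    change ∀ z : C₁ ⊗[B₁] ↥(latMod B₁ D),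
      latEquiv h₀₁ D (baseChangeMap (T := C₁) (T' := C₀₁) (R' := B₀₁)
        (rho (B₀ := B₁) (B₀₁ := B₀₁) D) z) =
      rho (B₀ := C₁) (B₀₁ := C₀₁) (g • D) (latEquiv h₁ D z)
    intro z
    induction z using TensorProduct.induction_on with
    | zero => rw [map_zero, map_zero, map_zero, map_zero]
    | tmul c x =>
      apply Subtype.ext
      rw [baseChangeMap_tmul, coe_rho, coe_latEquiv_tmul, coe_latEquiv_tmul, coe_rho,
        ← IsScalarTower.algebraMap_apply C₁ C₀₁ F]
    | add z z' hz hz' => rw [map_add, map_add, map_add, map_add, hz, hz']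

/-- **Base change of `O(D)` along a `g`-semilinear isomorphism of settings is `O(g • D)`.** -/
theorem baseChangeHom_cls_lineDiagOfDiv (S : IsSetting K F t s B₀₁)
    (S' : IsSetting K F t' s' C₀₁)
    (h₀ : IsCompat g B₀ C₀) (h₁ : IsCompat g B₁ C₁) (h₀₁ : IsCompat g B₀₁ C₀₁)
    (D : Divisor K F) :
    baseChangeHom C₀₁ t' s' (cls (lineDiagOfDiv S D)) = cls (lineDiagOfDiv S' (g • D)) := by
  rw [baseChangeHom_cls]
  exact cls_eq_iff.mpr ⟨isoBaseChange S S' h₀ h₁ h₀₁ D⟩

end TwoCharts

end Fermat.Agent.FFJ.Bridge.SettingEquiv96
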