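/-
Programme FFJ (S19), chapter BRIDGE (helper96), file 6: the bridge for the Galois module
`J₀(M)[n] = Submodule.torsionBy ℤ (JZero M) n` with its `G_ℚ`-action `Status72.torsDistribMulAction`
(the module of `Status72.GeoStatement`), and finiteness of this module.
-/
import Mathlib
import Fermat.Agent.FFJ.Bridge.BridgeSubalgebra96
import Fermat.Agent.FFJ.Spec.Status72
import Fermat.Agent.ES.KUM.FiniteTorsion15

set_option autoImplicit false
set_option linter.unusedSectionVars false
set_option linter.style.haveILetI false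

open AlgebraicCurve ModularCurve TensorProduct

namespace Fermat.Agent.FFJ.Bridge.TorsionBridge96

open Fermat.Agent.FFJ.Core.ClR35 Fermat.Agent.FFJ.Core.ClRBc35 Fermat.Agent.FFJ.Spec.Spec35
  Fermat.Agent.FFJ.Bridge.ModularBridge96 Fermat.Agent.FFJ.Bridge.ModularBridgeFK96
  Fermat.Agent.FFJ.Bridge.BridgeSubalgebra96 Fermat.Agent.FFJ.Spec.Status72
open Fermat.Agent.RED.Interface4 (FK)

/-- **`J₀(N)[n]` is finite** for `n ≠ 0`, in the `Submodule.torsionBy` form. -/
theorem finite_torsionBy (N : ℕ) [NeZero N] (n : ℤ) (hn : n ≠ 0) :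
    Finite ↥(Submodule.torsionBy ℤ (JZero N) n) := by
  haveI : NeZero n.natAbs := ⟨Int.natAbs_ne_zero.mpr hn⟩
  have hfin := Fermat.Agent.ES.KUM.FiniteTorsion15.finite_setOf_nsmul_eq_zero N n.natAbs
  have hsub : (↑(Submodule.torsionBy ℤ (JZero N) n) : Set (JZero N)) ⊆
      {y : JZero N | n.natAbs • y = 0} := by
    intro y hy
    have h1 : n • y = 0 := (Submodule.mem_torsionBy_iff _ _).1 hy
    show n.natAbs • y = 0
    rcases Int.natAbs_eq n with h | h
    · rw [h, natCast_zsmul] at h1
      simpa using h1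
    · rw [h, neg_smul, natCast_zsmul, neg_eq_zero] at h1
      simpa using h1
  exact (hfin.subset hsub).to_subtype

section Bridge

attribute [local instance 2000] SubalgebraClass.toAlgebra

variable (M : ℕ) (K : IntermediateField ℚ Qbar)
  (O : Type) [CommRing O] [Algebra O K] [IsFractionRing O K] [Algebra O Qbar]
  [IsScalarTower O K Qbar] [Algebra O (FK M K)] [IsScalarTower O K (FK M K)]
  (B01 : Subalgebra O (FK M K))
  {A0 A1 : Type} [CommRing A0] [CommRing A1]
  [Algebra O A0] [Algebra O A1] [Algebra A0 B01] [Algebra A1 B01]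
  [IsScalarTower O A0 B01] [IsScalarTower O A1 B01] {t : A0} {s : A1}
  [IsLocalization.Away t B01] [IsLocalization.Away s B01]

/-- **BRIDGE for `J₀(M)[n]`** with the action `Status72.torsDistribMulAction M n`: literally the
arguments `(ι, hinj, hmem, hequiv)` of `GeoWire77.geoInput_of_chart` (resp. the fields `ι, ι_injective,
ι_mem, ι_equivariant` of `Status72.GeoPackage`) for the module of `Status72.GeoStatement`. -/
theorem exists_bridge_torsion_subalgebra
    (H : Fermat.Agent.FFJ.Pic.ChartDefR35.CurveHypR O A0 A1 B01 t s) (e : B01 →ₐ[O] O)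
    (hfr : ∀ x : FK M K, ∃ a ∈ B01, ∃ b ∈ B01, b ≠ 0 ∧ x * b = a) (n : ℤ) :
    letI := torsDistribMulAction M n
    ∃ ι : Multiplicative ↥(Submodule.torsionBy ℤ (JZero M) n) →* ClR O A0 A1 B01 t s Qbar,
      Function.Injective ι ∧ (∀ m, ι m ∈ PicZeroR e Qbar) ∧
      ∀ (σ : Qbar ≃ₐ[K] Qbar) (m : ↥(Submodule.torsionBy ℤ (JZero M) n)),
        ι (Multiplicative.ofAdd ((σ.restrictScalars ℚ : GQ) • m)) =
          galActR O K σ (ι (Multiplicative.ofAdd m)) := by
  letI := torsDistribMulAction M n
  exact exists_bridge_subalgebra M K O B01 H e hfr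
    (Submodule.torsionBy ℤ (JZero M) n).subtype.toAddMonoidHom Subtype.val_injective
    (fun _ _ => rfl)

end Bridge

end Fermat.Agent.FFJ.Bridge.TorsionBridge96
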